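import Mathlib
import Fermat.Agent.S31.CycK
import Fermat.Prelude.Def_GaloisRep_ComplexConjugation

/-!
# TRACK 9 (S32), package F2 (helper29), part 4: complex conjugation is odd

* `S32Q_conj_root` : complex conjugation inverts the roots of unity;
* `S32Q_eps_conj`  : `ε_K (c) = -1` for the cyclotomic character modulo `p ^ K`.
-/

set_option autoImplicit false

namespace Fermat.Agent.S32

open Fermat.Agent.S31 Fermat.Agent.GalRep

/-- complex conjugation inverts the roots of unity. -/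
theorem S32Q_conj_root {n : ℕ} (hn : n ≠ 0) (ζ : AlgebraicClosure ℚ) (hζ : ζ ^ n = 1) :
    complexConjugation ζ = ζ ^ (n - 1) := by
  apply complexEmbedding.toRingHom.injective
  show complexEmbedding (complexConjugation ζ) = complexEmbedding (ζ ^ (n - 1))
  rw [complexEmbedding_complexConjugation, map_pow]
  set w : ℂ := complexEmbedding ζ with hw
  have hwn : w ^ n = 1 := by rw [hw, ← map_pow, hζ, map_one]
  have hnorm : ‖w‖ = 1 := Complex.norm_eq_one_of_pow_eq_one hwn hn
  have h1 : (starRingEnd ℂ) w = w⁻¹ := (Complex.inv_eq_conj hnorm).symm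
  have hw0 : w ≠ 0 := by
    intro h0
    rw [h0, zero_pow hn] at hwn
    exact zero_ne_one hwn
  rw [h1]
  apply mul_left_cancel₀ hw0
  rw [mul_inv_cancel₀ hw0, ← pow_succ', Nat.sub_add_cancel (Nat.pos_of_ne_zero hn), hwn]

variable (p : ℕ) [Fact p.Prime]

/-- **complex conjugation is odd**: `ε_K (c) = -1`. -/
theorem S32Q_eps_conj (K : ℕ) :
    ((CYK_eps p K complexConjugation : (ZMod (p ^ K))ˣ) : ZMod (p ^ K)) = -1 := by
  have hpK : p ^ K ≠ 0 := pow_ne_zero _ (Fact.out : p.Prime).ne_zero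
  obtain ⟨ζ, hζ⟩ := GR_cyc_exists_primitiveRoot p K
  have h1 := GR_cyc_eps_sub_mem p ℤ_[p] (CYK_p_mem p) complexConjugation hζ
    (S32Q_conj_root hpK ζ hζ.pow_eq_one)
  rw [PadicInt.maximalIdeal_eq_span_p, Ideal.span_singleton_pow, ← PadicInt.ker_toZModPow,
    RingHom.mem_ker, map_sub, sub_eq_zero, map_natCast] at h1
  rw [CYK_eps_coe]
  have h2 : ((CYK_cyc p).ε complexConjugation : ℤ_[p]ˣ)
      = GR_cyc_eps p ℤ_[p] (CYK_p_mem p) complexConjugation := rfl
  rw [h2, h1, Nat.cast_sub (Nat.one_le_iff_ne_zero.mpr hpK), ZMod.natCast_self, Nat.cast_one,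
    zero_sub]

end Fermat.Agent.S32
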