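import Mathlib
import Fermat.Agent.S17.Stab
import Fermat.Agent.GalRep.TwrFinal
import Fermat.Agent.S18.Reduce

/-!
# TRACK 9 (S32), package F2 (helper29), part 3: the Kummer map `J₀(N)[n] → ℤ/n ⊗ parInt N`

`S32Q_IsChar N n z χ` : `χ` is the Kummer character of a Kummer generator of the class `z`
(`n D = div f`, `z = [D]`).  From KAPPA (`KMF_kappa_final`): existence (`S32Q_isChar_exists`),
uniqueness (`S32Q_isChar_unique`), additivity, Galois equivariance (for `GRT_act`) and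
surjectivity.  `S32Q_kappa` : the resulting additive map `J₀(N)[ℓ^k] →+ ℤ/ℓ^k ⊗ parInt N`, onto,
equivariant for `GRT_r`.
-/

set_option autoImplicit false
set_option linter.style.haveILetI false

open ModularCurve AlgebraicCurve CongruenceSubgroup
open scoped TensorProduct

namespace Fermat.Agent.S32

open Fermat.Agent.GalRep Fermat.Agent.S17 Fermat.Agent.S16

variable (N : ℕ) [NeZero N]

/-- `χ` is the Kummer character of the class `z` of exponent `n`. -/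
def S32Q_IsChar (n : ℕ) (z : JZero N) (χ : ↥(GRT_X N n)) : Prop :=
  ∃ (D : Divisor.degZero (K := AlgebraicClosure ℚ) (F := ↥(modularFunctionFieldBar N)))
    (f : ↥(modularFunctionFieldBar N)), Pic0.mk D = z ∧ f ≠ 0 ∧
      (∀ v : Place (AlgebraicClosure ℚ) ↥(modularFunctionFieldBar N),
        (n : ℤ) * (D : Divisor _ _) v = v.ord f) ∧
      GR_KChar N n f (χ : Additive (Gamma0 N) →+ ZMod n)

variable {N}

omit [NeZero N] in
theorem S32Q_isKum_of {n : ℕ}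
    {D : Divisor.degZero (K := AlgebraicClosure ℚ) (F := ↥(modularFunctionFieldBar N))}
    {f : ↥(modularFunctionFieldBar N)} (hf0 : f ≠ 0)
    (hf : ∀ v : Place (AlgebraicClosure ℚ) ↥(modularFunctionFieldBar N),
        (n : ℤ) * (D : Divisor _ _) v = v.ord f) :
    KM_IsKum (AlgebraicClosure ℚ) ↥(modularFunctionFieldBar N) n f :=
  ⟨hf0, fun v => ⟨_, (hf v).symm⟩⟩

/-- existence. -/
theorem S32Q_isChar_exists {n : ℕ} (hn : 0 < n) (z : JZero N) (hz : n • z = 0) :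
    ∃ χ : ↥(GRT_X N n), S32Q_IsChar N n z χ := by
  have κ := KMF_kappa_final N
  obtain ⟨D, rfl⟩ := Pic0.mk_surjective z
  obtain ⟨f, hf0, hf⟩ := S17ST_exists_gen n D hz
  obtain ⟨χ, hell, hχ⟩ := κ.ex n hn f (S32Q_isKum_of hf0 hf)
  exact ⟨⟨χ, hell⟩, D, f, rfl, hf0, hf, hχ⟩

/-- uniqueness. -/
theorem S32Q_isChar_unique {n : ℕ} (hn : 0 < n) {z : JZero N} {χ χ' : ↥(GRT_X N n)}
    (h : S32Q_IsChar N n z χ) (h' : S32Q_IsChar N n z χ') : χ = χ' := by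
  have κ := KMF_kappa_final N
  obtain ⟨D, f, hD, hf0, hf, hχ⟩ := h
  obtain ⟨D', f', hD', hf0', hf', hχ'⟩ := h'
  -- `D - D'` is principal
  have h1 : Pic0.mk (D - D') = 0 := by
    have : Pic0.mk (D - D') = Pic0.mk D - Pic0.mk D' := rfl
    rw [this, hD, hD', sub_self]
  have h1' : ((D - D' : Divisor.degZero (K := AlgebraicClosure ℚ)
      (F := ↥(modularFunctionFieldBar N))) :
        Pic0 (AlgebraicClosure ℚ) ↥(modularFunctionFieldBar N)) = 0 := h1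
  rw [QuotientAddGroup.eq_zero_iff, AddSubgroup.mem_addSubgroupOf, Divisor.mem_principal] at h1'
  obtain ⟨g, hg0, hg⟩ := h1'
  -- `u = f / (f' gⁿ)` has trivial divisor
  have hu0 : f * (f' * g ^ n)⁻¹ ≠ 0 :=
    mul_ne_zero hf0 (inv_ne_zero (mul_ne_zero hf0' (pow_ne_zero _ hg0)))
  have hord : ∀ v : Place (AlgebraicClosure ℚ) ↥(modularFunctionFieldBar N),
      v.ord (f * (f' * g ^ n)⁻¹) = 0 := by
    intro v
    rw [v.ord_mul hf0 (inv_ne_zero (mul_ne_zero hf0' (pow_ne_zero _ hg0))), v.ord_inv,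
      v.ord_mul hf0' (pow_ne_zero _ hg0), S17ST_ord_pow, ← hf v, ← hf' v, ← hg v]
    have : ((D - D' : Divisor.degZero (K := AlgebraicClosure ℚ)
      (F := ↥(modularFunctionFieldBar N))) : Divisor _ _) v
        = (D : Divisor _ _) v - (D' : Divisor _ _) v := rfl
    rw [this]
    ring
  obtain ⟨c, hc⟩ := Fermat.Agent.S18.S18_hconst N _ hu0 hord
  have hc0 : c ≠ 0 := by
    rintro rfl
    rw [map_zero] at hc
    exact hu0 hc
  have ht : GR_IsTriv N n (f * (f' * g ^ n)⁻¹) := ⟨c, 1, hc0, one_ne_zero, by rw [hc, one_pow,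
    mul_one]⟩
  have hg' : GR_KChar N n (g ^ n) 0 :=
    κ.triv n hn _ ⟨1, g, one_ne_zero, hg0, by rw [map_one, one_mul]⟩
  have h2 : GR_KChar N n (f' * g ^ n) (χ' : Additive (Gamma0 N) →+ ZMod n) := by
    have := κ.mul n _ _ _ _ hχ' hg'
    rwa [add_zero] at this
  have h3 := GRT_kchar_of_isTriv_mul κ hn ht (mul_ne_zero hf0' (pow_ne_zero _ hg0)) h2
  exact Subtype.ext (κ.uniq n hn f _ _ hf0 hχ h3)

/-- additivity. -/
theorem S32Q_isChar_add {n : ℕ} {z z' : JZero N} {χ χ' : ↥(GRT_X N n)}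
    (h : S32Q_IsChar N n z χ) (h' : S32Q_IsChar N n z' χ') :
    S32Q_IsChar N n (z + z') (χ + χ') := by
  have κ := KMF_kappa_final N
  obtain ⟨D, f, hD, hf0, hf, hχ⟩ := h
  obtain ⟨D', f', hD', hf0', hf', hχ'⟩ := h'
  refine ⟨D + D', f * f', by rw [Pic0.mk_add, hD, hD'], mul_ne_zero hf0 hf0', fun v => ?_,
    κ.mul n _ _ _ _ hχ hχ'⟩
  rw [v.ord_mul hf0 hf0', ← hf v, ← hf' v]
  have : ((D + D' : Divisor.degZero (K := AlgebraicClosure ℚ)
      (F := ↥(modularFunctionFieldBar N))) : Divisor _ _) v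
        = (D : Divisor _ _) v + (D' : Divisor _ _) v := rfl
  rw [this]
  ring

/-- Galois equivariance. -/
theorem S32Q_isChar_gal {n : ℕ} (hn : 0 < n) (σ : GQ) {z : JZero N} {χ : ↥(GRT_X N n)}
    (h : S32Q_IsChar N n z χ) :
    S32Q_IsChar N n (σ • z) (GRT_act (KMF_kappa_final N) hn σ χ) := by
  obtain ⟨D, f, hD, hf0, hf, hχ⟩ := h
  refine ⟨SemilinearAut.degZeroSMulHom (arithmeticGalois (modularFunctionFieldFull N) σ) D,
    GR_gal N σ f, ?_, ?_, fun w => ?_, ?_⟩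
  · rw [← hD, galois_smul_pic0_def, SemilinearAut.pic0_smul_mk]
  · exact (map_ne_zero_iff (GR_gal N σ) (GR_gal N σ).injective).mpr hf0
  · rw [SemilinearAut.coe_degZeroSMulHom, SemilinearAut.divisor_smul_apply, hf]
    have h1 := SemilinearAut.ord_smul (arithmeticGalois (modularFunctionFieldFull N) σ)
      ((arithmeticGalois (modularFunctionFieldFull N) σ)⁻¹ • w) f
    rw [smul_inv_smul] at h1
    exact h1.symm
  · exact GRT_act_spec (KMF_kappa_final N) hn σ χ (S32Q_isKum_of hf0 hf) hχ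

/-- surjectivity. -/
theorem S32Q_isChar_surj {n : ℕ} (hn : 0 < n) (χ : ↥(GRT_X N n)) :
    ∃ z : JZero N, n • z = 0 ∧ S32Q_IsChar N n z χ := by
  classical
  have κ := KMF_kappa_final N
  obtain ⟨f, hf, hχ⟩ := κ.surj n hn χ.1 χ.2
  obtain ⟨E, hE, hdeg⟩ := (Fermat.Agent.S18.S18_hPD N).exists_divisor f hf.1
  have hn0 : (n : ℤ) ≠ 0 := by exact_mod_cast hn.ne'
  -- `D = E / n`
  let D : Divisor (AlgebraicClosure ℚ) ↥(modularFunctionFieldBar N) :=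
    Finsupp.mapRange (fun a : ℤ => a / (n : ℤ)) (by simp) E
  have hD : ∀ v, (n : ℤ) * D v = v.ord f := by
    intro v
    show (n : ℤ) * (Finsupp.mapRange (fun a : ℤ => a / (n : ℤ)) (by simp) E) v = _
    rw [Finsupp.mapRange_apply, hE v]
    exact Int.mul_ediv_cancel' (hf.2 v)
  have hnD : n • D = E := by
    ext v
    rw [Finsupp.smul_apply, hE v, ← hD v, nsmul_eq_mul]
  have hdegD : Divisor.degree D = 0 := by
    have h1 : Divisor.degree (n • D) = 0 := by rw [hnD, hdeg]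
    rw [map_nsmul, nsmul_eq_mul] at h1
    rcases mul_eq_zero.1 h1 with h2 | h2
    · exact absurd h2 hn0
    · exact h2
  refine ⟨Pic0.mk ⟨D, hdegD⟩, ?_, ⟨D, hdegD⟩, f, rfl, hf.1, hD, hχ⟩
  have : n • Pic0.mk (⟨D, hdegD⟩ : Divisor.degZero (K := AlgebraicClosure ℚ)
      (F := ↥(modularFunctionFieldBar N))) = Pic0.mk (n • ⟨D, hdegD⟩) := rfl
  rw [this]
  refine S17ST_mk_eq_zero _ f hf.1 (fun v => ?_)
  rw [← hD v]
  simp

section kappa

variable (N) (ℓ k : ℕ) [NeZero (ℓ ^ k)]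

omit [NeZero N] [NeZero (ℓ ^ k)] in
theorem S32Q_tors_nsmul (x : ↥(Submodule.torsionBy ℤ (JZero N) ((ℓ : ℤ) ^ k))) :
    (ℓ ^ k) • (x : JZero N) = 0 := by
  have h := x.2
  rw [Submodule.mem_torsionBy_iff] at h
  rw [← natCast_zsmul, Nat.cast_pow]
  exact h

/-- the Kummer character of a torsion class. -/
noncomputable def S32Q_chi (x : ↥(Submodule.torsionBy ℤ (JZero N) ((ℓ : ℤ) ^ k))) :
    ↥(GRT_X N (ℓ ^ k)) :=
  (S32Q_isChar_exists (Nat.pos_of_ne_zero (NeZero.ne (ℓ ^ k))) (x : JZero N)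
    (S32Q_tors_nsmul N ℓ k x)).choose

theorem S32Q_chi_spec (x : ↥(Submodule.torsionBy ℤ (JZero N) ((ℓ : ℤ) ^ k))) :
    S32Q_IsChar N (ℓ ^ k) (x : JZero N) (S32Q_chi N ℓ k x) :=
  (S32Q_isChar_exists (Nat.pos_of_ne_zero (NeZero.ne (ℓ ^ k))) (x : JZero N)
    (S32Q_tors_nsmul N ℓ k x)).choose_spec

theorem S32Q_chi_add (x y : ↥(Submodule.torsionBy ℤ (JZero N) ((ℓ : ℤ) ^ k))) :
    S32Q_chi N ℓ k (x + y) = S32Q_chi N ℓ k x + S32Q_chi N ℓ k y :=
  S32Q_isChar_unique (Nat.pos_of_ne_zero (NeZero.ne (ℓ ^ k))) (S32Q_chi_spec N ℓ k (x + y))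
    (S32Q_isChar_add (S32Q_chi_spec N ℓ k x) (S32Q_chi_spec N ℓ k y))

theorem S32Q_chi_gal (σ : GQ) (x y : ↥(Submodule.torsionBy ℤ (JZero N) ((ℓ : ℤ) ^ k)))
    (hxy : (y : JZero N) = σ • (x : JZero N)) :
    S32Q_chi N ℓ k y
      = GRT_act (KMF_kappa_final N) (Nat.pos_of_ne_zero (NeZero.ne (ℓ ^ k))) σ
          (S32Q_chi N ℓ k x) := by
  refine S32Q_isChar_unique (Nat.pos_of_ne_zero (NeZero.ne (ℓ ^ k))) (S32Q_chi_spec N ℓ k y) ?_
  rw [hxy]
  exact S32Q_isChar_gal _ σ (S32Q_chi_spec N ℓ k x)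

theorem S32Q_chi_surjective : Function.Surjective (S32Q_chi N ℓ k) := by
  intro χ
  obtain ⟨z, hz, hχ⟩ := S32Q_isChar_surj (Nat.pos_of_ne_zero (NeZero.ne (ℓ ^ k))) χ
  have hz' : z ∈ Submodule.torsionBy ℤ (JZero N) ((ℓ : ℤ) ^ k) := by
    rw [Submodule.mem_torsionBy_iff, ← Nat.cast_pow, natCast_zsmul]
    exact hz
  exact ⟨⟨z, hz'⟩, S32Q_isChar_unique (Nat.pos_of_ne_zero (NeZero.ne (ℓ ^ k)))
    (S32Q_chi_spec N ℓ k ⟨z, hz'⟩) hχ⟩

/-- **the Kummer map** `J₀(N)[ℓ^k] →+ ℤ/ℓ^k ⊗ parInt N`. -/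
noncomputable def S32Q_kappa :
    ↥(Submodule.torsionBy ℤ (JZero N) ((ℓ : ℤ) ^ k)) →+ (ZMod (ℓ ^ k) ⊗[ℤ] ↥(parInt N)) :=
  AddMonoidHom.mk' (fun x => (GRT_iso N (ℓ ^ k)).symm (S32Q_chi N ℓ k x)) (by
    intro x y
    rw [S32Q_chi_add, map_add])

theorem S32Q_kappa_apply (x : ↥(Submodule.torsionBy ℤ (JZero N) ((ℓ : ℤ) ^ k))) :
    S32Q_kappa N ℓ k x = (GRT_iso N (ℓ ^ k)).symm (S32Q_chi N ℓ k x) := rfl

theorem S32Q_kappa_surjective : Function.Surjective (S32Q_kappa N ℓ k) := by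
  intro m
  obtain ⟨x, hx⟩ := S32Q_chi_surjective N ℓ k (GRT_iso N (ℓ ^ k) m)
  exact ⟨x, by rw [S32Q_kappa_apply, hx, LinearEquiv.symm_apply_apply]⟩

theorem S32Q_kappa_gal (σ : GQ) (x y : ↥(Submodule.torsionBy ℤ (JZero N) ((ℓ : ℤ) ^ k)))
    (hxy : (y : JZero N) = σ • (x : JZero N)) :
    S32Q_kappa N ℓ k y = GRT_r (KMF_kappa_final N) (ℓ ^ k) σ (S32Q_kappa N ℓ k x) := by
  apply (GRT_iso N (ℓ ^ k)).injective
  rw [GRT_iso_r, S32Q_kappa_apply, S32Q_kappa_apply, LinearEquiv.apply_symm_apply,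
    LinearEquiv.apply_symm_apply]
  exact S32Q_chi_gal N ℓ k σ x y hxy

end kappa

end Fermat.Agent.S32
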