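import Mathlib

/-!
# TRACK 9 (S32), package F2 (helper29), part 1: the abstract algebra

`R` a ring, `Z` a commutative ring ("Hecke algebra") with `z : Z →+* R`, `G` a group with
`ρ : G →* R`, the `z d` commuting with the `ρ g`; `c ∈ G` an involution ("complex conjugation"),
`h ∈ Z` a "half" (`z h + z h = 1`), and the polarised Cayley–Hamilton relation
`ρ c * ρ g + ρ g * ρ c = z d * ρ c + z d'`.

* `S32Q_A z ρ` : the additive subgroup of `R` spanned by the `z d * ρ g` (a subring);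
* `S32Q_e`, `S32Q_f` : the idempotents `h (1 ± c)`;
* `S32Q_exe`, `S32Q_fxf` : `e x e = z d * e`, `f x f = z d * f` for `x ∈ S32Q_A`;
* `S32Q_star` : the key lemma: if `R` acts on `M` (through `p₁`) and on `W` (through `p₂`), the
  action of `Z` on `M` is "saturated" and `W` looks like `(T/I)²` with an irreducible action, then
  `x e = 0` on `M` implies `x vp = 0` in `W`.
-/

set_option autoImplicit false

namespace Fermat.Agent.S32

section ring

variable {R Z G : Type*} [Ring R] [CommRing Z] [Group G] (z : Z →+* R) (ρ : G →* R)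

/-- the additive subgroup of `R` spanned by the `z d * ρ g`. -/
def S32Q_A : AddSubgroup R := AddSubgroup.closure {x | ∃ d g, x = z d * ρ g}

theorem S32Q_A_gen (d : Z) (g : G) : z d * ρ g ∈ S32Q_A z ρ :=
  AddSubgroup.subset_closure ⟨d, g, rfl⟩

theorem S32Q_A_rho (g : G) : ρ g ∈ S32Q_A z ρ := by
  have := S32Q_A_gen z ρ 1 g
  rwa [map_one, one_mul] at this

theorem S32Q_A_z (d : Z) : z d ∈ S32Q_A z ρ := by
  have := S32Q_A_gen z ρ d 1
  rwa [map_one, mul_one] at this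

theorem S32Q_A_one : (1 : R) ∈ S32Q_A z ρ := by
  have := S32Q_A_rho z ρ 1
  rwa [map_one] at this

/-- the idempotent `h (1 + c)`. -/
def S32Q_e (h : Z) (c : G) : R := z h * (1 + ρ c)

/-- the idempotent `h (1 - c)`. -/
def S32Q_f (h : Z) (c : G) : R := z h * (1 - ρ c)

theorem S32Q_e_mem (h : Z) (c : G) : S32Q_e z ρ h c ∈ S32Q_A z ρ := by
  unfold S32Q_e
  rw [mul_add, mul_one]
  exact add_mem (S32Q_A_z z ρ h) (S32Q_A_gen z ρ h c)

theorem S32Q_f_mem (h : Z) (c : G) : S32Q_f z ρ h c ∈ S32Q_A z ρ := by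
  unfold S32Q_f
  rw [mul_sub, mul_one]
  exact sub_mem (S32Q_A_z z ρ h) (S32Q_A_gen z ρ h c)

theorem S32Q_e_add_f (h : Z) (c : G) (hh : z h + z h = 1) :
    S32Q_e z ρ h c + S32Q_f z ρ h c = 1 := by
  unfold S32Q_e S32Q_f
  rw [mul_add, mul_sub, mul_one]
  rw [← hh]
  abel

section comm

variable (hcomm : ∀ d g, Commute (z d) (ρ g))
include hcomm

theorem S32Q_A_gen_mul (d : Z) (g : G) {x : R} (hx : x ∈ S32Q_A z ρ) :
    z d * ρ g * x ∈ S32Q_A z ρ := by
  induction hx using AddSubgroup.closure_induction with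
  | mem x hx =>
    obtain ⟨d', g', rfl⟩ := hx
    have : z d * ρ g * (z d' * ρ g') = z (d * d') * ρ (g * g') := by
      rw [map_mul, map_mul, mul_assoc, ← mul_assoc (ρ g), ← (hcomm d' g).eq, mul_assoc,
        ← mul_assoc]
    rw [this]
    exact S32Q_A_gen z ρ _ _
  | zero => rw [mul_zero]; exact zero_mem _
  | add x y _ _ hx hy => rw [mul_add]; exact add_mem hx hy
  | neg x _ hx => rw [mul_neg]; exact neg_mem hx

theorem S32Q_A_mul {x y : R} (hx : x ∈ S32Q_A z ρ) (hy : y ∈ S32Q_A z ρ) :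
    x * y ∈ S32Q_A z ρ := by
  induction hx using AddSubgroup.closure_induction with
  | mem x hx =>
    obtain ⟨d, g, rfl⟩ := hx
    exact S32Q_A_gen_mul z ρ hcomm d g hy
  | zero => rw [zero_mul]; exact zero_mem _
  | add x x' _ _ hx hx' => rw [add_mul]; exact add_mem hx hx'
  | neg x _ hx => rw [neg_mul]; exact neg_mem hx

theorem S32Q_z_comm_e (h : Z) (c : G) (d : Z) : Commute (z d) (S32Q_e z ρ h c) := by
  unfold S32Q_e
  have h1 : Commute (z d) (z h) := by
    show z d * z h = z h * z d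
    rw [← map_mul, ← map_mul, mul_comm]
  exact h1.mul_right ((Commute.one_right _).add_right (hcomm d c))

theorem S32Q_z_comm_f (h : Z) (c : G) (d : Z) : Commute (z d) (S32Q_f z ρ h c) := by
  unfold S32Q_f
  have h1 : Commute (z d) (z h) := by
    show z d * z h = z h * z d
    rw [← map_mul, ← map_mul, mul_comm]
  exact h1.mul_right ((Commute.one_right _).sub_right (hcomm d c))

omit hcomm in
theorem S32Q_z_comm_z (d d' : Z) : Commute (z d) (z d') := by
  show z d * z d' = z d' * z d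
  rw [← map_mul, ← map_mul, mul_comm]

end comm

/-- polarised Cayley–Hamilton, `+` part. -/
theorem S32Q_key_plus (c g s t : R) (hc : c * c = 1) (h : c * g + g * c = s * c + t) :
    (1 + c) * g * (1 + c) = (s + t) * (1 + c) := by
  have hcg : c * g = s * c + t - g * c := eq_sub_of_add_eq h
  have h1 : (1 + c) * g * (1 + c) = g + (c * g + g * c) + c * g * c := by noncomm_ring
  have h2 : c * g * c = s + t * c - g := by
    rw [hcg, sub_mul, add_mul, mul_assoc, mul_assoc, hc, mul_one, mul_one]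
  rw [h1, h, h2]
  noncomm_ring

/-- polarised Cayley–Hamilton, `-` part. -/
theorem S32Q_key_minus (c g s t : R) (hc : c * c = 1) (h : c * g + g * c = s * c + t) :
    (1 - c) * g * (1 - c) = (s - t) * (1 - c) := by
  have hcg : c * g = s * c + t - g * c := eq_sub_of_add_eq h
  have h1 : (1 - c) * g * (1 - c) = g - (c * g + g * c) + c * g * c := by noncomm_ring
  have h2 : c * g * c = s + t * c - g := by
    rw [hcg, sub_mul, add_mul, mul_assoc, mul_assoc, hc, mul_one, mul_one]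
  rw [h1, h, h2]
  noncomm_ring

section CH

variable (hcomm : ∀ d g, Commute (z d) (ρ g)) (c : G) (hcc : ρ c * ρ c = 1)
  (h : Z) (hh : z h + z h = 1)
  (hCH : ∀ g, ∃ d d', ρ c * ρ g + ρ g * ρ c = z d * ρ c + z d')
include hcomm hcc hh

theorem S32Q_e_idem : S32Q_e z ρ h c * S32Q_e z ρ h c = S32Q_e z ρ h c := by
  unfold S32Q_e
  have h1 : z h * (1 + ρ c) * (z h * (1 + ρ c)) = z h * (z h * ((1 + ρ c) * (1 + ρ c))) := by
    have hc1 : Commute (z h) (1 + ρ c) := (Commute.one_right _).add_right (hcomm h c)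
    rw [mul_assoc, ← mul_assoc (1 + ρ c), ← hc1.eq, mul_assoc]
  have h2 : (1 + ρ c) * (1 + ρ c) = (1 + ρ c) + (1 + ρ c) := by
    have : (1 + ρ c) * (1 + ρ c) = 1 + ρ c + ρ c + ρ c * ρ c := by noncomm_ring
    rw [this, hcc]
    abel
  rw [h1, h2, mul_add, ← add_mul, hh, one_mul]

theorem S32Q_f_idem : S32Q_f z ρ h c * S32Q_f z ρ h c = S32Q_f z ρ h c := by
  unfold S32Q_f
  have h1 : z h * (1 - ρ c) * (z h * (1 - ρ c)) = z h * (z h * ((1 - ρ c) * (1 - ρ c))) := by
    have hc1 : Commute (z h) (1 - ρ c) := (Commute.one_right _).sub_right (hcomm h c)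
    rw [mul_assoc, ← mul_assoc (1 - ρ c), ← hc1.eq, mul_assoc]
  have h2 : (1 - ρ c) * (1 - ρ c) = (1 - ρ c) + (1 - ρ c) := by
    have : (1 - ρ c) * (1 - ρ c) = 1 - ρ c - ρ c + ρ c * ρ c := by noncomm_ring
    rw [this, hcc]
    abel
  rw [h1, h2, mul_add, ← add_mul, hh, one_mul]

include hCH
omit hh

/-- `e x e = z d * e` for `x` in `S32Q_A`. -/
theorem S32Q_exe {x : R} (hx : x ∈ S32Q_A z ρ) :
    ∃ d : Z, S32Q_e z ρ h c * x * S32Q_e z ρ h c = z d * S32Q_e z ρ h c := by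
  induction hx using AddSubgroup.closure_induction with
  | mem x hx =>
    obtain ⟨d₀, g, rfl⟩ := hx
    obtain ⟨d, d', hd⟩ := hCH g
    refine ⟨d₀ * h * (d + d'), ?_⟩
    have hk := S32Q_key_plus (ρ c) (ρ g) (z d) (z d') hcc hd
    rw [mul_assoc] at hk
    unfold S32Q_e
    have hu : ∀ (a : Z) (y : R), (1 + ρ c) * (z a * y) = z a * ((1 + ρ c) * y) := fun a y =>
      (((Commute.one_right _).add_right (hcomm a c)).symm).left_comm y
    have hg : ∀ (a : Z) (y : R), ρ g * (z a * y) = z a * (ρ g * y) := fun a y =>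
      ((hcomm a g).symm).left_comm y
    have L : z h * (1 + ρ c) * (z d₀ * ρ g) * (z h * (1 + ρ c))
        = z (h * d₀ * h * (d + d')) * (1 + ρ c) := by
      simp only [mul_assoc, hu, hg]
      rw [hk]
      simp only [map_mul, map_add, mul_assoc]
    have Rr : z (d₀ * h * (d + d')) * (z h * (1 + ρ c))
        = z (d₀ * h * (d + d') * h) * (1 + ρ c) := by
      simp only [map_mul, map_add, mul_assoc]
    rw [L, Rr]
    congr 2
    ring
  | zero => exact ⟨0, by rw [mul_zero, zero_mul, map_zero, zero_mul]⟩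
  | add x y _ _ hx hy =>
    obtain ⟨d₁, h1⟩ := hx
    obtain ⟨d₂, h2⟩ := hy
    exact ⟨d₁ + d₂, by rw [mul_add, add_mul, h1, h2, map_add, add_mul]⟩
  | neg x _ hx =>
    obtain ⟨d₁, h1⟩ := hx
    exact ⟨-d₁, by rw [mul_neg, neg_mul, h1, map_neg, neg_mul]⟩

/-- `f x f = z d * f` for `x` in `S32Q_A`. -/
theorem S32Q_fxf {x : R} (hx : x ∈ S32Q_A z ρ) :
    ∃ d : Z, S32Q_f z ρ h c * x * S32Q_f z ρ h c = z d * S32Q_f z ρ h c := by
  induction hx using AddSubgroup.closure_induction with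
  | mem x hx =>
    obtain ⟨d₀, g, rfl⟩ := hx
    obtain ⟨d, d', hd⟩ := hCH g
    refine ⟨d₀ * h * (d - d'), ?_⟩
    have hk := S32Q_key_minus (ρ c) (ρ g) (z d) (z d') hcc hd
    rw [mul_assoc] at hk
    unfold S32Q_f
    have hu : ∀ (a : Z) (y : R), (1 - ρ c) * (z a * y) = z a * ((1 - ρ c) * y) := fun a y =>
      (((Commute.one_right _).sub_right (hcomm a c)).symm).left_comm y
    have hg : ∀ (a : Z) (y : R), ρ g * (z a * y) = z a * (ρ g * y) := fun a y =>
      ((hcomm a g).symm).left_comm y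
    have L : z h * (1 - ρ c) * (z d₀ * ρ g) * (z h * (1 - ρ c))
        = z (h * d₀ * h * (d - d')) * (1 - ρ c) := by
      simp only [mul_assoc, hu, hg]
      rw [hk]
      simp only [map_mul, map_sub, mul_assoc]
    have Rr : z (d₀ * h * (d - d')) * (z h * (1 - ρ c))
        = z (d₀ * h * (d - d') * h) * (1 - ρ c) := by
      simp only [map_mul, map_sub, mul_assoc]
    rw [L, Rr]
    congr 2
    ring
  | zero => exact ⟨0, by rw [mul_zero, zero_mul, map_zero, zero_mul]⟩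
  | add x y _ _ hx hy =>
    obtain ⟨d₁, h1⟩ := hx
    obtain ⟨d₂, h2⟩ := hy
    exact ⟨d₁ + d₂, by rw [mul_add, add_mul, h1, h2, map_add, add_mul]⟩
  | neg x _ hx =>
    obtain ⟨d₁, h1⟩ := hx
    exact ⟨-d₁, by rw [mul_neg, neg_mul, h1, map_neg, neg_mul]⟩

end CH

end ring

section star

variable {R Z G R₁ T W : Type*} [Ring R] [CommRing Z] [Group G] [Ring R₁] [CommRing T]
  [AddCommGroup W] [Module T W]
  (z : Z →+* R) (ρ : G →* R) (p₁ : R →+* R₁) (p₂ : R →+* Module.End T W)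
  (hcomm : ∀ d g, Commute (z d) (ρ g))
  (e f : R) (he : e ∈ S32Q_A z ρ) (hf : f ∈ S32Q_A z ρ) (hef : e + f = 1) (hff : f * f = f)
  (hzf : ∀ d, Commute (z d) f)
  (hexe : ∀ x ∈ S32Q_A z ρ, ∃ d, e * x * e = z d * e)
  (hfxf : ∀ x ∈ S32Q_A z ρ, ∃ d, f * x * f = z d * f)
  (hsat : ∀ d, p₁ (z d) = 0 → p₂ (z d) = 0)
  (vp : W) (hvp : p₂ e vp = vp)
  (g₁ g₂ : G) (k' : Module.End T W) (hk' : ∀ d, Commute k' (p₂ (z d)))
  (hκ : k' * p₂ (f * ρ g₁ * e * ρ g₂ * f) = p₂ f)
  (hann : ∀ d, p₂ (z d) * p₂ f = 0 → p₂ (z d) vp = 0)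
include hcomm he hef hzf hexe hfxf hsat hvp hk' hκ hann

/-- step A of the key lemma. -/
theorem S32Q_stepA {y : R} (hy : y ∈ S32Q_A z ρ) (h0 : p₁ y * p₁ e = 0) :
    p₂ (e * y * e) vp = 0 := by
  obtain ⟨d, hd⟩ := hexe y hy
  have hmem : ρ g₁ * e * ρ g₂ ∈ S32Q_A z ρ :=
    S32Q_A_mul z ρ hcomm (S32Q_A_mul z ρ hcomm (S32Q_A_rho z ρ g₁) he) (S32Q_A_rho z ρ g₂)
  obtain ⟨ds, hds⟩ := hfxf _ hmem
  have hds' : f * ρ g₁ * e * ρ g₂ * f = z ds * f := by
    rw [← hds]
    simp only [mul_assoc]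
  -- `z d * e` vanishes on `M`
  have h1 : p₁ (z d) * p₁ e = 0 := by
    rw [← map_mul, ← hd, map_mul, map_mul, mul_assoc, h0, mul_zero]
  -- `z d * z ds` vanishes on `M`
  have h2 : p₁ (z (d * ds)) = 0 := by
    have e2 : f * ρ g₁ * (z d * e) * ρ g₂ * f = z d * (f * ρ g₁ * e * ρ g₂ * f) := by
      have a1 : ∀ y : R, f * (z d * y) = z d * (f * y) := fun y => (hzf d).symm.left_comm y
      have a2 : ∀ y : R, ρ g₁ * (z d * y) = z d * (ρ g₁ * y) := fun y =>
        (hcomm d g₁).symm.left_comm y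
      simp only [mul_assoc, a1, a2]
    have e1 : z (d * ds) = z ds * (z d * e) + f * ρ g₁ * (z d * e) * ρ g₂ * f := by
      rw [e2, hds', map_mul]
      calc z d * z ds = z d * z ds * (e + f) := by rw [hef, mul_one]
        _ = z ds * (z d * e) + z d * (z ds * f) := by
          rw [mul_add, mul_assoc (z d) (z ds) f, (S32Q_z_comm_z z d ds).eq, mul_assoc]
    have e4 : p₁ (f * ρ g₁ * (z d * e) * ρ g₂ * f) = 0 := by
      rw [map_mul, map_mul, map_mul, map_mul (p₁) (z d) e, h1, mul_zero, zero_mul, zero_mul]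
    rw [e1, map_add, e4, add_zero, map_mul, map_mul, h1, mul_zero]
  have h3 : p₂ (z (d * ds)) = 0 := hsat _ h2
  have h4 : p₂ (z d) * p₂ f = 0 := by
    rw [map_mul, map_mul] at h3
    rw [← hκ, hds', map_mul, ← mul_assoc, ← mul_assoc, ← (hk' d).eq, mul_assoc k',
      h3, mul_zero, zero_mul]
  have h5 := hann d h4
  rw [hd, map_mul, Module.End.mul_apply, hvp, h5]

include hf hff

/-- **the key lemma**: an element of `S32Q_A` which kills `e M` kills `vp`. -/
theorem S32Q_star_abs {x : R} (hx : x ∈ S32Q_A z ρ) (h0 : p₁ x * p₁ e = 0) :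
    p₂ x vp = 0 := by
  have hA := fun (y : R) (hy : y ∈ S32Q_A z ρ) (h0 : p₁ y * p₁ e = 0) =>
    S32Q_stepA z ρ p₁ p₂ hcomm e f he hef hzf hexe hfxf hsat vp hvp g₁ g₂ k' hk' hκ hann hy h0
  have s1 : p₂ x vp = p₂ (e * x * e) vp + p₂ (f * x * e) vp := by
    rw [← LinearMap.add_apply, ← map_add, ← add_mul, ← add_mul, hef, one_mul, map_mul,
      Module.End.mul_apply, hvp]
  have s2 : p₂ (e * x * e) vp = 0 := hA x hx h0
  obtain ⟨w, hw⟩ : ∃ w, w = p₂ (f * x * e) vp := ⟨_, rfl⟩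
  have hymem : ρ g₂ * f * x ∈ S32Q_A z ρ :=
    S32Q_A_mul z ρ hcomm (S32Q_A_mul z ρ hcomm (S32Q_A_rho z ρ g₂) hf) hx
  have hy0 : p₁ (ρ g₂ * f * x) * p₁ e = 0 := by
    rw [map_mul, mul_assoc, h0, mul_zero]
  have s3 : p₂ (e * ρ g₂) w = 0 := by
    have := hA _ hymem hy0
    rw [hw, ← Module.End.mul_apply, ← map_mul]
    have e5 : e * ρ g₂ * (f * x * e) = e * (ρ g₂ * f * x) * e := by simp only [mul_assoc]
    rw [e5]
    exact this
  have s4 : p₂ f w = w := by
    rw [hw, ← Module.End.mul_apply, ← map_mul, ← mul_assoc, ← mul_assoc, hff]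
  have s5 : w = 0 := by
    rw [← s4, ← hκ]
    have e6 : f * ρ g₁ * e * ρ g₂ * f = f * ρ g₁ * (e * ρ g₂) * f := by simp only [mul_assoc]
    rw [e6, map_mul, map_mul, Module.End.mul_apply, Module.End.mul_apply, Module.End.mul_apply,
      s4, s3, map_zero, map_zero]
  rw [s1, s2, ← hw, s5, add_zero]

end star

end Fermat.Agent.S32
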