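import Mathlib
import Fermat.Agent.S32.SubQAlg

/-!
# TRACK 9 (S32), package F2 (helper29), part 2: the abstract subquotient statement

`S32Q_core`: `G` acts on `M` (through `r`) and on the `T`-module `W` (killed by `I`, spanned by
`vp`, `vm` with `c vp = vp`, `c vm = - vm`, through `ρW`); `Z` acts on `M` through `ι`, commuting
with `G`, and on `W` through `π : Z → T`.  If the polarised Cayley–Hamilton relation for `c` holds
on `M` and on `W` with the same Hecke elements, the action of `Z` on `M` is saturated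
(`ι d = 0 → π d ∈ I`), and some `g₁`, `g₂` have unit off-diagonal entries, then `W` is a
`G`-equivariant quotient of a `G`-stable subgroup of `M ^ ((T/I) × M)`, in the form of a
`G`-stable additive relation `Γ ⊂ ((T/I) × M → M) × W` which is functional and onto.
-/

set_option autoImplicit false

namespace Fermat.Agent.S32

section core

variable {G A M Z T W : Type*} [Group G] [CommRing A] [AddCommGroup M] [Module A M]
  [CommRing Z] [CommRing T] [AddCommGroup W] [Module T W]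

/-- the action of `Z` on the pair `(M, W)`. -/
def S32Q_zz (ι : Z →+* Module.End A M) (π : Z →+* T) :
    Z →+* Module.End A M × Module.End T W :=
  ι.prod ((algebraMap T (Module.End T W)).comp π)

/-- the action of `G` on the pair `(M, W)`. -/
def S32Q_rr (r : G →* Module.End A M) (ρW : G →* Module.End T W) :
    G →* Module.End A M × Module.End T W :=
  r.prod ρW

variable (I : Ideal T) [Fintype (T ⧸ I)]
  (r : G →* Module.End A M) (ι : Z →+* Module.End A M)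
  (ρW : G →* Module.End T W) (π : Z →+* T) (c : G) (h : Z) (vp : W)

/-- a section of `T → T ⧸ I`. -/
noncomputable def S32Q_lift (s : T ⧸ I) : T :=
  Function.surjInv (Ideal.Quotient.mk_surjective (I := I)) s

omit [Fintype (T ⧸ I)] in
theorem S32Q_lift_sub_mem (t : T) : S32Q_lift I (Ideal.Quotient.mk I t) - t ∈ I := by
  rw [← Ideal.Quotient.eq]
  exact Function.surjInv_eq (Ideal.Quotient.mk_surjective (I := I)) _

/-- the relation `Γ`. -/
noncomputable def S32Q_Gam : AddSubgroup (((T ⧸ I) × M → M) × W) where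
  carrier := {q | ∃ a : (T ⧸ I) → Module.End A M × Module.End T W,
    (∀ s, a s ∈ S32Q_A (S32Q_zz ι π) (S32Q_rr r ρW)) ∧
    (∀ s m, q.1 (s, m) = (a s).1 ((S32Q_e (S32Q_zz ι π) (S32Q_rr r ρW) h c).1 m)) ∧
    q.2 = ∑ s, S32Q_lift I s • (a s).2 vp}
  zero_mem' := ⟨0, fun _ => zero_mem _, fun _ _ => by simp, by simp⟩
  add_mem' := by
    rintro q q' ⟨a, ha, h1, h2⟩ ⟨a', ha', h1', h2'⟩
    refine ⟨a + a', fun s => add_mem (ha s) (ha' s), fun s m => ?_, ?_⟩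
    · rw [Prod.fst_add, Pi.add_apply, h1, h1', Pi.add_apply, Prod.fst_add, LinearMap.add_apply]
    · rw [Prod.snd_add, h2, h2', ← Finset.sum_add_distrib]
      refine Finset.sum_congr rfl fun s _ => ?_
      rw [Pi.add_apply, Prod.snd_add, LinearMap.add_apply, smul_add]
  neg_mem' := by
    rintro q ⟨a, ha, h1, h2⟩
    refine ⟨-a, fun s => neg_mem (ha s), fun s m => ?_, ?_⟩
    · rw [Prod.fst_neg, Pi.neg_apply, h1, Pi.neg_apply, Prod.fst_neg, LinearMap.neg_apply]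
    · rw [Prod.snd_neg, h2, ← Finset.sum_neg_distrib]
      refine Finset.sum_congr rfl fun s _ => ?_
      rw [Pi.neg_apply, Prod.snd_neg, LinearMap.neg_apply, smul_neg]

theorem S32Q_mem_Gam (q : ((T ⧸ I) × M → M) × W) :
    q ∈ S32Q_Gam I r ι ρW π c h vp ↔
      ∃ a : (T ⧸ I) → Module.End A M × Module.End T W,
        (∀ s, a s ∈ S32Q_A (S32Q_zz ι π) (S32Q_rr r ρW)) ∧
        (∀ s m, q.1 (s, m) = (a s).1 ((S32Q_e (S32Q_zz ι π) (S32Q_rr r ρW) h c).1 m)) ∧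
        q.2 = ∑ s, S32Q_lift I s • (a s).2 vp := Iff.rfl

end core

section main

variable {G A M Z T W : Type*} [Group G] [CommRing A] [AddCommGroup M] [Module A M]
  [CommRing Z] [CommRing T] [AddCommGroup W] [Module T W]
  (I : Ideal T) (hIW : ∀ t ∈ I, ∀ w : W, t • w = 0)
  (r : G →* Module.End A M) (ι : Z →+* Module.End A M) (hιr : ∀ d g, Commute (ι d) (r g))
  (ρW : G →* Module.End T W) (π : Z →+* T)
  (c : G) (hcc : c * c = 1) (h : Z) (hhM : ι h + ι h = 1) (hhW : π h + π h - 1 ∈ I)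
  (hCH : ∀ g, ∃ d d' : Z, r c * r g + r g * r c = ι d * r c + ι d' ∧
     ρW c * ρW g + ρW g * ρW c = π d • ρW c + π d' • (1 : Module.End T W))
  (hsat : ∀ d, ι d = 0 → π d ∈ I)
  (vp vm : W) (hspan : ∀ w, ∃ t₁ t₂ : T, w = t₁ • vp + t₂ • vm)
  (hcp : ρW c vp = vp) (hcm : ρW c vm = -vm) (hann : ∀ t : T, t • vm = 0 → t ∈ I)
  (g₁ g₂ : G) (a₁ γ₁ β₂ δ₂ γ₁' β₂' : T)
  (hg₁ : ρW g₁ vp = a₁ • vp + γ₁ • vm) (hg₂ : ρW g₂ vm = β₂ • vp + δ₂ • vm)
  (hγ : γ₁ * γ₁' - 1 ∈ I) (hβ : β₂ * β₂' - 1 ∈ I)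

include hιr in
theorem S32Q_zz_comm (d : Z) (g : G) :
    Commute (S32Q_zz (T := T) (W := W) ι π d) (S32Q_rr r ρW g) := by
  show (_ : Module.End A M × Module.End T W) = _
  refine Prod.ext (hιr d g).eq ?_
  exact Algebra.commutes (π d) (ρW g)

include hcc in
theorem S32Q_rr_cc : S32Q_rr r ρW c * S32Q_rr r ρW c = 1 := by
  rw [← map_mul, hcc, map_one]

theorem S32Q_zz_snd (d : Z) (w : W) : (S32Q_zz (A := A) (M := M) (W := W) ι π d).2 w = π d • w :=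
  rfl

theorem S32Q_zz_fst (d : Z) : (S32Q_zz (T := T) (W := W) ι π d).1 = ι d := rfl

theorem S32Q_rr_snd (g : G) : (S32Q_rr r ρW g).2 = ρW g := rfl

theorem S32Q_rr_fst (g : G) : (S32Q_rr r ρW g).1 = r g := rfl

include hIW in
theorem S32Q_smul_congr {t t' : T} (ht : t - t' ∈ I) (w : W) : t • w = t' • w := by
  have := hIW _ ht w
  rwa [sub_smul, sub_eq_zero] at this

include hIW hhM hhW in
theorem S32Q_zz_half : S32Q_zz (T := T) (W := W) ι π h + S32Q_zz (T := T) (W := W) ι π h = 1 := by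
  refine Prod.ext hhM ?_
  apply LinearMap.ext
  intro w
  show π h • w + π h • w = w
  rw [← add_smul, S32Q_smul_congr I hIW hhW w, one_smul]

include hCH in
theorem S32Q_CH (g : G) : ∃ d d', S32Q_rr r ρW c * S32Q_rr r ρW g
    + S32Q_rr r ρW g * S32Q_rr r ρW c
      = S32Q_zz ι π d * S32Q_rr r ρW c + S32Q_zz ι π d' := by
  obtain ⟨d, d', h1, h2⟩ := hCH g
  refine ⟨d, d', Prod.ext h1 ?_⟩
  show ρW c * ρW g + ρW g * ρW c = algebraMap T (Module.End T W) (π d) * ρW c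
    + algebraMap T (Module.End T W) (π d')
  rw [h2, Algebra.smul_def, Algebra.algebraMap_eq_smul_one (π d')]

theorem S32Q_e_snd (w : W) :
    (S32Q_e (S32Q_zz (A := A) (M := M) ι π) (S32Q_rr r ρW) h c).2 w = π h • (w + ρW c w) := rfl

theorem S32Q_f_snd (w : W) :
    (S32Q_f (S32Q_zz (A := A) (M := M) ι π) (S32Q_rr r ρW) h c).2 w = π h • (w - ρW c w) := rfl

include hIW hhW hcp in
theorem S32Q_e_vp :
    (S32Q_e (S32Q_zz (A := A) (M := M) ι π) (S32Q_rr r ρW) h c).2 vp = vp := by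
  rw [S32Q_e_snd, hcp, smul_add, ← add_smul, S32Q_smul_congr I hIW hhW vp, one_smul]

include hcp in
theorem S32Q_f_vp :
    (S32Q_f (S32Q_zz (A := A) (M := M) ι π) (S32Q_rr r ρW) h c).2 vp = 0 := by
  rw [S32Q_f_snd, hcp, sub_self, smul_zero]

include hcm in
theorem S32Q_e_vm :
    (S32Q_e (S32Q_zz (A := A) (M := M) ι π) (S32Q_rr r ρW) h c).2 vm = 0 := by
  rw [S32Q_e_snd, hcm, add_neg_cancel, smul_zero]

include hIW hhW hcm in
theorem S32Q_f_vm :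
    (S32Q_f (S32Q_zz (A := A) (M := M) ι π) (S32Q_rr r ρW) h c).2 vm = vm := by
  rw [S32Q_f_snd, hcm, sub_neg_eq_add, smul_add, ← add_smul, S32Q_smul_congr I hIW hhW vm,
    one_smul]

include hIW hhW hcp hcm hg₁ hg₂ in
theorem S32Q_F_vm :
    (S32Q_f (S32Q_zz (A := A) (M := M) ι π) (S32Q_rr r ρW) h c * S32Q_rr r ρW g₁
      * S32Q_e (S32Q_zz (A := A) (M := M) ι π) (S32Q_rr r ρW) h c * S32Q_rr r ρW g₂
      * S32Q_f (S32Q_zz (A := A) (M := M) ι π) (S32Q_rr r ρW) h c).2 vm = (β₂ * γ₁) • vm := by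
  have h1 := S32Q_f_vm (A := A) (M := M) I hIW r ι ρW π c h hhW vm hcm
  have h3 : (S32Q_e (S32Q_zz (A := A) (M := M) ι π) (S32Q_rr r ρW) h c).2 (β₂ • vp + δ₂ • vm)
      = β₂ • vp := by
    rw [map_add, map_smul, map_smul, S32Q_e_vp I hIW r ι ρW π c h hhW vp hcp,
      S32Q_e_vm r ι ρW π c h vm hcm, smul_zero, add_zero]
  have h4 : (S32Q_f (S32Q_zz (A := A) (M := M) ι π) (S32Q_rr r ρW) h c).2 (ρW g₁ (β₂ • vp))
      = (β₂ * γ₁) • vm := by
    rw [map_smul, hg₁, map_smul, map_add, map_smul, map_smul,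
      S32Q_f_vp r ι ρW π c h vp hcp, h1, smul_zero, zero_add, smul_smul]
  show (S32Q_f (S32Q_zz (A := A) (M := M) ι π) (S32Q_rr r ρW) h c).2 (ρW g₁
    ((S32Q_e (S32Q_zz (A := A) (M := M) ι π) (S32Q_rr r ρW) h c).2 (ρW g₂
      ((S32Q_f (S32Q_zz (A := A) (M := M) ι π) (S32Q_rr r ρW) h c).2 vm)))) = _
  rw [h1, hg₂, h3, h4]

include hcp in
theorem S32Q_F_vp :
    (S32Q_f (S32Q_zz (A := A) (M := M) ι π) (S32Q_rr r ρW) h c * S32Q_rr r ρW g₁
      * S32Q_e (S32Q_zz (A := A) (M := M) ι π) (S32Q_rr r ρW) h c * S32Q_rr r ρW g₂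
      * S32Q_f (S32Q_zz (A := A) (M := M) ι π) (S32Q_rr r ρW) h c).2 vp = 0 := by
  rw [Prod.snd_mul, Module.End.mul_apply, S32Q_f_vp r ι ρW π c h vp hcp, map_zero]

include hIW hhW hspan hcp hcm hg₁ hg₂ hγ hβ in
theorem S32Q_kunit :
    algebraMap T (Module.End T W) (γ₁' * β₂') *
      (S32Q_f (S32Q_zz (A := A) (M := M) ι π) (S32Q_rr r ρW) h c * S32Q_rr r ρW g₁
      * S32Q_e (S32Q_zz (A := A) (M := M) ι π) (S32Q_rr r ρW) h c * S32Q_rr r ρW g₂
      * S32Q_f (S32Q_zz (A := A) (M := M) ι π) (S32Q_rr r ρW) h c).2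
      = (S32Q_f (S32Q_zz (A := A) (M := M) ι π) (S32Q_rr r ρW) h c).2 := by
  apply LinearMap.ext
  intro w
  obtain ⟨t₁, t₂, rfl⟩ := hspan w
  have hL' : (S32Q_f (S32Q_zz (A := A) (M := M) ι π) (S32Q_rr r ρW) h c * S32Q_rr r ρW g₁
      * S32Q_e (S32Q_zz (A := A) (M := M) ι π) (S32Q_rr r ρW) h c * S32Q_rr r ρW g₂
      * S32Q_f (S32Q_zz (A := A) (M := M) ι π) (S32Q_rr r ρW) h c).2 (t₁ • vp + t₂ • vm)
      = t₂ • (β₂ * γ₁) • vm := by
    rw [map_add, map_smul, map_smul, S32Q_F_vp r ι ρW π c h vp hcp g₁ g₂,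
      S32Q_F_vm I hIW r ι ρW π c h hhW vp vm hcp hcm g₁ g₂ a₁ γ₁ β₂ δ₂ hg₁ hg₂, smul_zero,
      zero_add]
  have hR : (S32Q_f (S32Q_zz (A := A) (M := M) ι π) (S32Q_rr r ρW) h c).2 (t₁ • vp + t₂ • vm)
      = t₂ • vm := by
    rw [map_add, map_smul, map_smul, S32Q_f_vp r ι ρW π c h vp hcp,
      S32Q_f_vm I hIW r ι ρW π c h hhW vm hcm, smul_zero, zero_add]
  rw [Module.End.mul_apply, hL', hR, Module.algebraMap_end_apply, smul_comm (γ₁' * β₂') t₂,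
    smul_smul (γ₁' * β₂')]
  have hmem : γ₁' * β₂' * (β₂ * γ₁) - 1 ∈ I := by
    have e1 : γ₁' * β₂' * (β₂ * γ₁) - 1
        = (γ₁ * γ₁' - 1) * (β₂ * β₂') + (β₂ * β₂' - 1) := by ring
    rw [e1]
    exact I.add_mem (I.mul_mem_right _ hγ) hβ
  rw [S32Q_smul_congr I hIW hmem vm, one_smul]

include hIW hιr hcc hhM hhW hCH hsat hspan hcp hcm hann hg₁ hg₂ hγ hβ in
/-- the key lemma in the concrete situation. -/
theorem S32Q_star {x : Module.End A M × Module.End T W}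
    (hx : x ∈ S32Q_A (S32Q_zz ι π) (S32Q_rr r ρW))
    (h0 : x.1 * (S32Q_e (S32Q_zz (T := T) (W := W) ι π) (S32Q_rr r ρW) h c).1 = 0) :
    x.2 vp = 0 := by
  have hcomm := S32Q_zz_comm (T := T) (W := W) r ι hιr ρW π
  have hrc := S32Q_rr_cc r ρW c hcc
  have hh := S32Q_zz_half I hIW ι π h hhM hhW
  have hCH' := S32Q_CH r ι ρW π c hCH
  refine S32Q_star_abs (S32Q_zz ι π) (S32Q_rr r ρW)
    (RingHom.fst (Module.End A M) (Module.End T W)) (RingHom.snd (Module.End A M) (Module.End T W))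
    hcomm (S32Q_e (S32Q_zz ι π) (S32Q_rr r ρW) h c) (S32Q_f (S32Q_zz ι π) (S32Q_rr r ρW) h c)
    (S32Q_e_mem _ _ h c) (S32Q_f_mem _ _ h c) (S32Q_e_add_f _ _ h c hh)
    (S32Q_f_idem _ _ hcomm c hrc h hh) (fun d => S32Q_z_comm_f _ _ hcomm h c d)
    (fun x hx => S32Q_exe _ _ hcomm c hrc h hCH' hx)
    (fun x hx => S32Q_fxf _ _ hcomm c hrc h hCH' hx)
    ?_ vp (S32Q_e_vp I hIW r ι ρW π c h hhW vp hcp) g₁ g₂
    (algebraMap T (Module.End T W) (γ₁' * β₂')) ?_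
    (S32Q_kunit I hIW r ι ρW π c h hhW vp vm hspan hcp hcm g₁ g₂ a₁ γ₁ β₂ δ₂ γ₁' β₂' hg₁ hg₂ hγ hβ)
    ?_ hx h0
  · intro d hd
    have h1 : π d ∈ I := hsat d hd
    apply LinearMap.ext
    intro w
    exact hIW _ h1 w
  · intro d
    exact Algebra.commutes _ _
  · intro d hd
    have h1 := LinearMap.congr_fun hd vm
    rw [Module.End.mul_apply] at h1
    change (S32Q_zz ι π d).2 ((S32Q_f (S32Q_zz ι π) (S32Q_rr r ρW) h c).2 vm) = 0 at h1
    rw [S32Q_f_vm I hIW r ι ρW π c h hhW vm hcm, S32Q_zz_snd] at h1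
    exact hIW _ (hann _ h1) vp

variable [Fintype (T ⧸ I)]

include hIW hιr hcc hhM hhW hCH hsat hspan hcp hcm hann hg₁ hg₂ hγ hβ in
/-- `Γ` is functional. -/
theorem S32Q_Gam_functional (q : ((T ⧸ I) × M → M) × W)
    (hq : q ∈ S32Q_Gam I r ι ρW π c h vp) (h0 : q.1 = 0) : q.2 = 0 := by
  obtain ⟨a, ha, h1, h2⟩ := hq
  rw [h2]
  refine Finset.sum_eq_zero fun s _ => ?_
  have h3 : (a s).1 * (S32Q_e (S32Q_zz (T := T) (W := W) ι π) (S32Q_rr r ρW) h c).1 = 0 := by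
    apply LinearMap.ext
    intro m
    rw [Module.End.mul_apply, ← h1 s m, h0]
    rfl
  rw [S32Q_star I hIW r ι hιr ρW π c hcc h hhM hhW hCH hsat vp vm hspan hcp hcm hann g₁ g₂
    a₁ γ₁ β₂ δ₂ γ₁' β₂' hg₁ hg₂ hγ hβ (ha s) h3, smul_zero]

include hιr in
/-- `Γ` is stable under `G`. -/
theorem S32Q_Gam_stable (σ : G) (q : ((T ⧸ I) × M → M) × W)
    (hq : q ∈ S32Q_Gam I r ι ρW π c h vp) :
    ((fun i => r σ (q.1 i)), ρW σ q.2) ∈ S32Q_Gam I r ι ρW π c h vp := by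
  obtain ⟨a, ha, h1, h2⟩ := hq
  have hcomm := S32Q_zz_comm (T := T) (W := W) r ι hιr ρW π
  refine ⟨fun s => S32Q_rr r ρW σ * a s,
    fun s => S32Q_A_mul _ _ hcomm (S32Q_A_rho _ _ σ) (ha s), fun s m => ?_, ?_⟩
  · show r σ (q.1 (s, m)) = _
    rw [h1 s m]
    rfl
  · show ρW σ q.2 = _
    rw [h2, map_sum]
    refine Finset.sum_congr rfl fun s _ => ?_
    rw [map_smul]
    rfl

include hIW in
/-- `Γ` contains `t • a vp` in its image. -/
theorem S32Q_Gam_onto_gen (t : T) (a : Module.End A M × Module.End T W)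
    (ha : a ∈ S32Q_A (S32Q_zz ι π) (S32Q_rr r ρW)) :
    ∃ x, (x, t • a.2 vp) ∈ S32Q_Gam I r ι ρW π c h vp := by
  classical
  refine ⟨fun i => ((Pi.single (Ideal.Quotient.mk I t) a :
      (T ⧸ I) → Module.End A M × Module.End T W) i.1).1
    ((S32Q_e (S32Q_zz (T := T) (W := W) ι π) (S32Q_rr r ρW) h c).1 i.2), ?_⟩
  refine ⟨Pi.single (Ideal.Quotient.mk I t) a, fun s => ?_, fun s m => rfl, ?_⟩
  · by_cases hs : s = Ideal.Quotient.mk I t
    · rw [hs, Pi.single_eq_same]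
      exact ha
    · rw [Pi.single_eq_of_ne hs]
      exact zero_mem _
  · show t • a.2 vp = _
    rw [Finset.sum_eq_single (Ideal.Quotient.mk I t)]
    · rw [Pi.single_eq_same]
      exact (S32Q_smul_congr I hIW (S32Q_lift_sub_mem I t) _).symm
    · intro s _ hs
      rw [Pi.single_eq_of_ne hs]
      simp
    · intro hs
      exact absurd (Finset.mem_univ _) hs

include hIW hιr hhW hspan hcp hcm hg₁ hγ in
/-- `Γ` is onto. -/
theorem S32Q_Gam_onto (w : W) : ∃ x, (x, w) ∈ S32Q_Gam I r ι ρW π c h vp := by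
  obtain ⟨t₁, t₂, rfl⟩ := hspan w
  obtain ⟨x₁, hx₁⟩ := S32Q_Gam_onto_gen I hIW r ι ρW π c h vp t₁ 1 (S32Q_A_one _ _)
  obtain ⟨x₂, hx₂⟩ := S32Q_Gam_onto_gen I hIW r ι ρW π c h vp (t₂ * γ₁')
    (S32Q_f (S32Q_zz ι π) (S32Q_rr r ρW) h c * S32Q_rr r ρW g₁)
    (S32Q_A_mul _ _ (S32Q_zz_comm (T := T) (W := W) r ι hιr ρW π) (S32Q_f_mem _ _ h c)
      (S32Q_A_rho _ _ g₁))
  refine ⟨x₁ + x₂, ?_⟩
  have h1 : (1 : Module.End A M × Module.End T W).2 vp = vp := rfl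
  have h2 : (S32Q_f (S32Q_zz (A := A) (M := M) ι π) (S32Q_rr r ρW) h c * S32Q_rr r ρW g₁).2 vp
      = γ₁ • vm := by
    show (S32Q_f (S32Q_zz (A := A) (M := M) ι π) (S32Q_rr r ρW) h c).2 (ρW g₁ vp) = _
    rw [hg₁, map_add, map_smul, map_smul, S32Q_f_vp r ι ρW π c h vp hcp,
      S32Q_f_vm I hIW r ι ρW π c h hhW vm hcm, smul_zero, zero_add]
  have h3 : (t₂ * γ₁') • γ₁ • vm = t₂ • vm := by
    rw [smul_smul]
    refine S32Q_smul_congr I hIW ?_ vm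
    have : t₂ * γ₁' * γ₁ - t₂ = t₂ * (γ₁ * γ₁' - 1) := by ring
    rw [this]
    exact I.mul_mem_left _ hγ
  rw [h1] at hx₁
  rw [h2, h3] at hx₂
  exact add_mem hx₁ hx₂

end main

section transport

variable {G J M W ι₀ : Type*} [AddCommGroup J] [AddCommGroup M] [AddCommGroup W] [Finite ι₀]

/-- transport of a functional, stable, onto relation along an equivariant surjection. -/
theorem S32Q_transport (actJ : G → J → J) (rM : G → M → M) (ρ : G → W → W) (κ : J →+ M)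
    (hκs : Function.Surjective κ) (hκe : ∀ σ x, κ (actJ σ x) = rM σ (κ x))
    (Γ : AddSubgroup ((ι₀ → M) × W)) (hf : ∀ q ∈ Γ, q.1 = 0 → q.2 = 0)
    (hst : ∀ σ, ∀ q ∈ Γ, ((fun i => rM σ (q.1 i)), ρ σ q.2) ∈ Γ)
    (hon : ∀ w, ∃ x, (x, w) ∈ Γ) :
    ∃ (n : ℕ) (P : AddSubgroup (Fin n → J))
      (hP : ∀ σ, ∀ x ∈ P, (fun i => actJ σ (x i)) ∈ P) (φ : ↥P →+ W),
      Function.Surjective φ ∧
        ∀ σ (x : ↥P), φ ⟨fun i => actJ σ (x.1 i), hP σ x.1 x.2⟩ = ρ σ (φ x) := by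
  classical
  obtain ⟨n, ⟨ε⟩⟩ := Finite.exists_equiv_fin ι₀
  -- the comparison map
  let Φ : (Fin n → J) →+ (ι₀ → M) :=
    { toFun := fun x i => κ (x (ε i))
      map_zero' := by ext i; simp
      map_add' := by intro x y; ext i; simp }
  have hΦ : ∀ x i, Φ x i = κ (x (ε i)) := fun _ _ => rfl
  -- uniqueness
  have huniq : ∀ (u u' : ι₀ → M) (w w' : W), u = u' → (u, w) ∈ Γ → (u', w') ∈ Γ → w = w' := by
    intro u u' w w' huu h1 h2
    subst huu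
    have h3 := hf _ (sub_mem h1 h2) (by simp)
    exact sub_eq_zero.1 (by simpa using h3)
  let P : AddSubgroup (Fin n → J) :=
    { carrier := {x | ∃ w, (Φ x, w) ∈ Γ}
      zero_mem' := ⟨0, by rw [map_zero]; exact zero_mem Γ⟩
      add_mem' := by
        rintro x y ⟨w, hw⟩ ⟨w', hw'⟩
        exact ⟨w + w', by rw [map_add]; exact add_mem hw hw'⟩
      neg_mem' := by
        rintro x ⟨w, hw⟩
        exact ⟨-w, by rw [map_neg]; exact neg_mem hw⟩ }
  have hPmem : ∀ x, x ∈ P ↔ ∃ w, (Φ x, w) ∈ Γ := fun _ => Iff.rfl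
  have hΦact : ∀ σ x, Φ (fun i => actJ σ (x i)) = fun i => rM σ (Φ x i) := by
    intro σ x
    ext i
    rw [hΦ, hΦ, hκe]
  have hP : ∀ σ, ∀ x ∈ P, (fun i => actJ σ (x i)) ∈ P := by
    rintro σ x ⟨w, hw⟩
    refine ⟨ρ σ w, ?_⟩
    rw [hΦact]
    exact hst σ _ hw
  let φ₀ : ↥P → W := fun x => (x.2 : ∃ w, (Φ x.1, w) ∈ Γ).choose
  have hφ₀ : ∀ x : ↥P, (Φ x.1, φ₀ x) ∈ Γ := fun x => (x.2 : ∃ w, (Φ x.1, w) ∈ Γ).choose_spec
  let φ : ↥P →+ W := AddMonoidHom.mk' φ₀ (by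
    intro x y
    refine huniq (Φ (x + y).1) (Φ x.1 + Φ y.1) _ _ (map_add Φ x.1 y.1) (hφ₀ (x + y)) ?_
    exact add_mem (hφ₀ x) (hφ₀ y))
  have hφ : ∀ x : ↥P, φ x = φ₀ x := fun _ => rfl
  refine ⟨n, P, hP, φ, ?_, ?_⟩
  · intro w
    obtain ⟨u, hu⟩ := hon w
    have hx : Φ (fun j => Function.surjInv hκs (u (ε.symm j))) = u := by
      ext i
      rw [hΦ, Function.surjInv_eq hκs, Equiv.symm_apply_apply]
    have hXmem : (fun j => Function.surjInv hκs (u (ε.symm j))) ∈ P :=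
      ⟨w, by rw [hx]; exact hu⟩
    refine ⟨⟨_, hXmem⟩, ?_⟩
    rw [hφ]
    exact huniq _ u _ _ hx (hφ₀ ⟨_, hXmem⟩) hu
  · intro σ x
    rw [hφ, hφ]
    exact huniq _ _ _ _ (hΦact σ x.1) (hφ₀ ⟨fun i => actJ σ (x.1 i), hP σ x.1 x.2⟩)
      (hst σ _ (hφ₀ x))

end transport

end Fermat.Agent.S32
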