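import Mathlib

/-!
# TRACK 9 (S32), package F2 (helper29), part 5: the `V` side (linear algebra in rank 2)

`T` a local ring in which `2` is a unit, `V` free of rank 2.

* `S32Q_polar` : the polarised Cayley–Hamilton identity in `End_T V`;
* `S32Q_eigen_basis` : an involution of trace `0` has an eigenbasis (`C b₀ = b₀`, `C b₁ = - b₁`);
* `S32Q_offdiag₁`, `S32Q_offdiag₂` : if a set of endomorphisms spans `End_T V`, one of them has a
  unit lower left (upper right) entry;
* `S32Q_q` : the ring homomorphism `End_T V → End_T (V ⧸ I • ⊤)`.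
-/

set_option autoImplicit false

namespace Fermat.Agent.S32

open Module

section matrix

variable {T : Type*} [CommRing T]

/-- the polarised Cayley–Hamilton identity for `2 × 2` matrices. -/
theorem S32Q_polar_matrix (A B : Matrix (Fin 2) (Fin 2) T) :
    A * B + B * A = B.trace • A + A.trace • B + ((A * B).trace - A.trace * B.trace) • 1 := by
  ext i j
  fin_cases i <;> fin_cases j <;>
    simp [Matrix.mul_apply, Fin.sum_univ_two, Matrix.trace_fin_two] <;> ring

/-- an involution of trace `0` is diagonalisable (over a local ring with `2` invertible). -/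
theorem S32Q_eigen_matrix [IsLocalRing T] (h2 : IsUnit (2 : T)) (M : Matrix (Fin 2) (Fin 2) T)
    (hM : M * M = 1) (htr : M.trace = 0) :
    ∃ P : Matrix (Fin 2) (Fin 2) T, IsUnit P.det ∧ M * P = P * Matrix.diagonal ![1, -1] := by
  have h00 : M 0 0 * M 0 0 + M 0 1 * M 1 0 = 1 := by
    have := congrFun (congrFun hM 0) 0
    simpa [Matrix.mul_apply, Fin.sum_univ_two] using this
  have hd : M 1 1 = - M 0 0 := by
    rw [Matrix.trace_fin_two] at htr
    exact eq_neg_of_add_eq_zero_right htr
  have hsum : IsUnit ((1 + M 0 0) + (1 - M 0 0)) := by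
    have : (1 + M 0 0) + (1 - M 0 0) = 2 := by ring
    rw [this]
    exact h2
  rcases IsLocalRing.isUnit_or_isUnit_of_isUnit_add hsum with hu | hu
  · refine ⟨!![1 + M 0 0, - M 0 1; M 1 0, 1 + M 0 0], ?_, ?_⟩
    · rw [Matrix.det_fin_two_of]
      have : (1 + M 0 0) * (1 + M 0 0) - -M 0 1 * M 1 0 = 2 * (1 + M 0 0) := by
        linear_combination h00
      rw [this]
      exact h2.mul hu
    · ext i j
      fin_cases i <;> fin_cases j <;>
        simp [Matrix.mul_apply, Fin.sum_univ_two, hd] <;>
        first
          | ring1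
          | linear_combination h00
          | linear_combination -h00
  · refine ⟨!![M 0 1, 1 - M 0 0; 1 - M 0 0, - M 1 0], ?_, ?_⟩
    · rw [Matrix.det_fin_two_of]
      have : M 0 1 * -M 1 0 - (1 - M 0 0) * (1 - M 0 0) = - (2 * (1 - M 0 0)) := by
        linear_combination -h00
      rw [this]
      exact (h2.mul hu).neg
    · ext i j
      fin_cases i <;> fin_cases j <;>
        simp [Matrix.mul_apply, Fin.sum_univ_two, hd] <;>
        first
          | ring1
          | linear_combination h00
          | linear_combination -h00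

end matrix

section endo

variable {T V : Type*} [CommRing T] [Nontrivial T] [AddCommGroup V] [Module T V]
  [Module.Free T V] [Module.Finite T V]

/-- the polarised Cayley–Hamilton identity in `End_T V`, `V` free of rank `2`. -/
theorem S32Q_polar (hrk : Module.finrank T V = 2) (A B : Module.End T V) :
    A * B + B * A = LinearMap.trace T V B • A + LinearMap.trace T V A • B
      + (LinearMap.trace T V (A * B) - LinearMap.trace T V A * LinearMap.trace T V B) • 1 := by
  classical
  let b : Basis (Fin 2) T V := Module.finBasisOfFinrankEq T V hrk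
  apply (LinearMap.toMatrix b b).injective
  rw [map_add, map_add, map_add, map_smul, map_smul, map_smul, LinearMap.toMatrix_mul,
    LinearMap.toMatrix_mul, LinearMap.toMatrix_one, LinearMap.trace_eq_matrix_trace T b A,
    LinearMap.trace_eq_matrix_trace T b B, LinearMap.trace_eq_matrix_trace T b (A * B),
    LinearMap.toMatrix_mul]
  exact S32Q_polar_matrix _ _

/-- polarised Cayley–Hamilton against an endomorphism of trace `0`. -/
theorem S32Q_polar_zero (hrk : Module.finrank T V = 2) (C B : Module.End T V)
    (hC : LinearMap.trace T V C = 0) :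
    C * B + B * C = LinearMap.trace T V B • C + LinearMap.trace T V (C * B) • 1 := by
  rw [S32Q_polar hrk C B, hC, zero_smul, add_zero, zero_mul, sub_zero]

omit [Nontrivial T] in
/-- an involution of trace `0` has an eigenbasis. -/
theorem S32Q_eigen_basis [IsLocalRing T] (h2 : IsUnit (2 : T)) (hrk : Module.finrank T V = 2)
    (C : Module.End T V) (hC : C * C = 1) (htr : LinearMap.trace T V C = 0) :
    ∃ b : Basis (Fin 2) T V, C (b 0) = b 0 ∧ C (b 1) = - b 1 := by
  classical
  let b₀ : Basis (Fin 2) T V := Module.finBasisOfFinrankEq T V hrk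
  set M := LinearMap.toMatrix b₀ b₀ C with hMdef
  have hM : M * M = 1 := by
    rw [hMdef, ← LinearMap.toMatrix_mul, hC, LinearMap.toMatrix_one]
  have htr' : M.trace = 0 := by
    rw [hMdef, ← LinearMap.trace_eq_matrix_trace T b₀ C, htr]
  obtain ⟨P, hP, hMP⟩ := S32Q_eigen_matrix h2 M hM htr'
  have hCM : C = Matrix.toLin b₀ b₀ M := (Matrix.toLin_toMatrix b₀ b₀ C).symm
  have key : ∀ i : Fin 2, C (Matrix.toLin b₀ b₀ P (b₀ i))
      = (![1, -1] : Fin 2 → T) i • Matrix.toLin b₀ b₀ P (b₀ i) := by
    intro i
    have h1 : C (Matrix.toLin b₀ b₀ P (b₀ i))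
        = Matrix.toLin b₀ b₀ (M * P) (b₀ i) := by
      rw [Matrix.toLin_mul b₀ b₀ b₀, LinearMap.comp_apply, ← hCM]
    have h2' : Matrix.toLin b₀ b₀ (Matrix.diagonal (![1, -1] : Fin 2 → T)) (b₀ i)
        = (![1, -1] : Fin 2 → T) i • b₀ i := by
      rw [Matrix.toLin_self]
      rw [Finset.sum_eq_single i]
      · rw [Matrix.diagonal_apply_eq]
      · intro j _ hj
        rw [Matrix.diagonal_apply_ne _ hj, zero_smul]
      · intro h
        exact absurd (Finset.mem_univ i) h
    rw [h1, hMP, Matrix.toLin_mul b₀ b₀ b₀, LinearMap.comp_apply, h2', map_smul]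
  refine ⟨b₀.map (P.toLinearEquiv b₀ hP), ?_, ?_⟩
  · have := key 0
    simp only [Matrix.cons_val_zero, one_smul] at this
    rw [Basis.map_apply, Matrix.toLinearEquiv_apply]
    exact this
  · have := key 1
    simp only [Matrix.cons_val_one, Matrix.cons_val_fin_one, neg_smul, one_smul] at this
    rw [Basis.map_apply, Matrix.toLinearEquiv_apply]
    exact this

omit [Nontrivial T] [Module.Free T V] [Module.Finite T V] in
/-- if `S` spans `End_T V`, some element of `S` has a unit `(j, i)` entry. -/
theorem S32Q_offdiag [IsLocalRing T] (b : Basis (Fin 2) T V) (S : Set (Module.End T V))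
    (hS : Submodule.span T S = ⊤) (i j : Fin 2) :
    ∃ X ∈ S, IsUnit (b.repr (X (b i)) j) := by
  classical
  by_contra hcon
  simp only [not_exists, not_and] at hcon
  have hall : ∀ X ∈ Submodule.span T S, b.repr (X (b i)) j ∈ IsLocalRing.maximalIdeal T := by
    intro X hX
    induction hX using Submodule.span_induction with
    | mem X hX => exact (IsLocalRing.mem_maximalIdeal _).2 (hcon X hX)
    | zero => simp
    | add X Y _ _ hX hY =>
      rw [LinearMap.add_apply, map_add, Finsupp.add_apply]
      exact Ideal.add_mem _ hX hY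
    | smul c X _ hX =>
      rw [LinearMap.smul_apply, map_smul, Finsupp.smul_apply, smul_eq_mul]
      exact Ideal.mul_mem_left _ _ hX
  have hE := hall (b.constr T (fun _ => b j)) (by rw [hS]; trivial)
  rw [Basis.constr_basis, Basis.repr_self, Finsupp.single_eq_same] at hE
  exact (IsLocalRing.mem_maximalIdeal _).1 hE isUnit_one

end endo

section quot

variable {T V : Type*} [CommRing T] [AddCommGroup V] [Module T V] (I : Ideal T)

theorem S32Q_map_le (X : Module.End T V) :
    I • (⊤ : Submodule T V) ≤ (I • (⊤ : Submodule T V)).comap X := by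
  rw [← Submodule.map_le_iff_le_comap, Submodule.map_smul'']
  exact Submodule.smul_mono le_rfl le_top

/-- the ring homomorphism `End_T V → End_T (V ⧸ I • ⊤)`. -/
def S32Q_q : Module.End T V →+* Module.End T (V ⧸ I • (⊤ : Submodule T V)) where
  toFun X := Submodule.mapQ _ _ X (S32Q_map_le I X)
  map_one' := by
    apply LinearMap.ext
    intro w
    obtain ⟨v, rfl⟩ := Submodule.Quotient.mk_surjective _ w
    rfl
  map_mul' X Y := by
    apply LinearMap.ext
    intro w
    obtain ⟨v, rfl⟩ := Submodule.Quotient.mk_surjective _ w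
    rfl
  map_zero' := by
    apply LinearMap.ext
    intro w
    obtain ⟨v, rfl⟩ := Submodule.Quotient.mk_surjective _ w
    rfl
  map_add' X Y := by
    apply LinearMap.ext
    intro w
    obtain ⟨v, rfl⟩ := Submodule.Quotient.mk_surjective _ w
    rfl

theorem S32Q_q_mk (X : Module.End T V) (v : V) :
    S32Q_q I X (Submodule.Quotient.mk v) = Submodule.Quotient.mk (X v) := rfl

theorem S32Q_q_smul (t : T) (X : Module.End T V) : S32Q_q I (t • X) = t • S32Q_q I X := by
  apply LinearMap.ext
  intro w
  obtain ⟨v, rfl⟩ := Submodule.Quotient.mk_surjective _ w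
  rfl

theorem S32Q_kill (t : T) (ht : t ∈ I) (w : V ⧸ I • (⊤ : Submodule T V)) : t • w = 0 := by
  obtain ⟨v, rfl⟩ := Submodule.Quotient.mk_surjective _ w
  rw [← Submodule.Quotient.mk_smul, Submodule.Quotient.mk_eq_zero]
  exact Submodule.smul_mem_smul ht Submodule.mem_top

theorem S32Q_repr_mem {ι : Type*} (b : Basis ι T V) {x : V}
    (hx : x ∈ I • (⊤ : Submodule T V)) (i : ι) : b.repr x i ∈ I := by
  refine Submodule.smul_induction_on hx ?_ ?_
  · intro a ha w _
    rw [map_smul, Finsupp.smul_apply, smul_eq_mul]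
    exact I.mul_mem_right _ ha
  · intro x y hx hy
    rw [map_add, Finsupp.add_apply]
    exact I.add_mem hx hy

theorem S32Q_span_mk (b : Basis (Fin 2) T V) (w : V ⧸ I • (⊤ : Submodule T V)) :
    ∃ t₁ t₂ : T, w = t₁ • (Submodule.Quotient.mk (b 0) : V ⧸ I • (⊤ : Submodule T V))
      + t₂ • (Submodule.Quotient.mk (b 1) : V ⧸ I • (⊤ : Submodule T V)) := by
  obtain ⟨v, rfl⟩ := Submodule.Quotient.mk_surjective _ w
  refine ⟨b.repr v 0, b.repr v 1, ?_⟩
  rw [← Submodule.Quotient.mk_smul, ← Submodule.Quotient.mk_smul, ← Submodule.Quotient.mk_add]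
  congr 1
  have := b.sum_repr v
  rw [Fin.sum_univ_two] at this
  exact this.symm

theorem S32Q_ann_mk (b : Basis (Fin 2) T V) (t : T)
    (h : t • (Submodule.Quotient.mk (b 1) : V ⧸ I • (⊤ : Submodule T V)) = 0) : t ∈ I := by
  rw [← Submodule.Quotient.mk_smul, Submodule.Quotient.mk_eq_zero] at h
  have := S32Q_repr_mem I b h 1
  rwa [map_smul, Finsupp.smul_apply, Basis.repr_self, Finsupp.single_eq_same, smul_eq_mul,
    mul_one] at this

theorem S32Q_entry_mk (b : Basis (Fin 2) T V) (X : Module.End T V) (i : Fin 2) :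
    S32Q_q I X (Submodule.Quotient.mk (b i))
      = b.repr (X (b i)) 0 • (Submodule.Quotient.mk (b 0) : V ⧸ I • (⊤ : Submodule T V))
        + b.repr (X (b i)) 1 • (Submodule.Quotient.mk (b 1) : V ⧸ I • (⊤ : Submodule T V)) := by
  rw [S32Q_q_mk, ← Submodule.Quotient.mk_smul, ← Submodule.Quotient.mk_smul,
    ← Submodule.Quotient.mk_add]
  congr 1
  have := b.sum_repr (X (b i))
  rw [Fin.sum_univ_two] at this
  exact this.symm

end quot

end Fermat.Agent.S32
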