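import Mathlib
import Fermat.Agent.S31.Asm
import Fermat.Agent.S32.SubQCore
import Fermat.Agent.S32.SubQV
import Fermat.Prelude.Def_GaloisRep_ComplexConjugation
import Fermat.Prelude.Def_GaloisRep_Flat

/-!
# TRACK 9 (S32), package F2 (helper29), part 6: `V / I V` from the tower

`S32Q_of_tower` : for a Hecke–Galois datum `H` and an ideal `I` of finite index, `V / I V` is a
Galois-equivariant quotient of a Galois-stable subgroup of `(J K) ^ n`, for any family `J K` of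
Galois modules with equivariant surjections onto the levels `ℤ/p^K ⊗ parInt N` of the
Galois–Hecke tower.
-/

set_option autoImplicit false
set_option linter.unusedSectionVars false
set_option linter.unusedVariables false
set_option linter.style.haveILetI false

open scoped TensorProduct

namespace Fermat.Agent.S32

open Fermat.Agent.GalRep Fermat.Agent.S16 Fermat.Agent.S31 CuspForm

section generic

/-- polarised Cayley–Hamilton for `c` on a module with `g + ε(g) g⁻¹` "scalar". -/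
theorem S32Q_polar_M {A M G : Type*} [CommRing A] [AddCommGroup M] [Module A M] [Group G]
    (r : G →* Module.End A M) (ε : G →* Aˣ) (c : G) (hcc : c * c = 1)
    (hε : ((ε c : Aˣ) : A) = -1) (g : G) :
    r c * r g + r g * r c
      = (r g + ((ε g : Aˣ) : A) • r g⁻¹) * r c
        + (r (c * g) + ((ε (c * g) : Aˣ) : A) • r (c * g)⁻¹) := by
  have hcinv : c⁻¹ = c := inv_eq_of_mul_eq_one_right hcc
  rw [mul_inv_rev, hcinv, map_mul ε, Units.val_mul, hε, map_mul r c g, map_mul r g⁻¹ c, add_mul,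
    smul_mul_assoc, neg_one_mul, neg_smul]
  abel

/-- the universal trace at an odd involution vanishes. -/
theorem S32Q_tM_conj {A M G : Type*} [CommRing A] [AddCommGroup M] [Module A M] [Group G]
    (r : G →* Module.End A M) (ε : G →* Aˣ) (c : G) (hcc : c * c = 1)
    (hε : ((ε c : Aˣ) : A) = -1) : r c + ((ε c : Aˣ) : A) • r c⁻¹ = 0 := by
  have hcinv : c⁻¹ = c := inv_eq_of_mul_eq_one_right hcc
  rw [hcinv, hε, neg_smul, one_smul, add_neg_cancel]

/-- `2` is a unit in a local ring of odd residue characteristic. -/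
theorem S32Q_two_unit {T : Type*} [CommRing T] [IsLocalRing T] {p : ℕ} (hp : p.Prime)
    (hp2 : p ≠ 2) (hpT : (p : T) ∈ IsLocalRing.maximalIdeal T) : IsUnit (2 : T) := by
  by_contra h2
  have h2m : (2 : T) ∈ IsLocalRing.maximalIdeal T := (IsLocalRing.mem_maximalIdeal _).2 h2
  obtain ⟨m, hm⟩ := (hp.eq_two_or_odd').resolve_left hp2
  have h1 : (1 : T) = (p : T) - 2 * (m : T) := by
    rw [hm]
    push_cast
    ring
  have : (1 : T) ∈ IsLocalRing.maximalIdeal T := by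
    rw [h1]
    exact Ideal.sub_mem _ hpT (Ideal.mul_mem_right _ _ h2m)
  exact (IsLocalRing.mem_maximalIdeal _).1 this isUnit_one

/-- an ideal of finite index in a noetherian local ring contains a power of the maximal
ideal. -/
theorem S32Q_exists_pow_le {T : Type*} [CommRing T] [IsLocalRing T] [IsNoetherianRing T]
    (I : Ideal T) [Finite (T ⧸ I)] : ∃ k : ℕ, IsLocalRing.maximalIdeal T ^ k ≤ I := by
  by_cases hI : I = ⊤
  · exact ⟨0, by rw [hI]; exact le_top⟩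
  apply Ideal.exists_pow_le_of_le_radical_of_fg _ (IsNoetherian.noetherian _)
  rw [Ideal.radical_eq_sInf]
  refine le_sInf ?_
  rintro P ⟨hIP, hP⟩
  haveI := hP
  haveI : Finite (T ⧸ P) :=
    Finite.of_surjective (Ideal.Quotient.factor hIP) (Ideal.Quotient.factor_surjective hIP)
  have hfield : IsField (T ⧸ P) := Finite.isField_of_domain (T ⧸ P)
  have hmax : P.IsMaximal := Ideal.Quotient.maximal_of_isField P hfield
  rw [IsLocalRing.eq_maximalIdeal hmax]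

/-- every element of the Hecke algebra away from `S ⊇ {primes of N}` commutes with what
commutes with the `T_ℓ`. -/
theorem S32Q_hecke_commute {N : ℕ} [NeZero N] {S : Set ℕ} {E : Type*} [Ring E]
    (φ : heckeAlgebra N 2 S →+* E) (x : E)
    (hT : ∀ {ℓ : ℕ} (hℓ : ℓ.Prime) (hℓN : ¬ ℓ ∣ N) (hℓS : ℓ ∉ S),
      Commute (φ (heckeAlgebra.T hℓ hℓN hℓS)) x)
    (hNS : ∀ q : ℕ, q.Prime → q ∣ N → q ∈ S) (d : heckeAlgebra N 2 S) : Commute (φ d) x := by
  obtain ⟨d, hd⟩ := d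
  induction hd using Algebra.adjoin_induction with
  | mem a ha =>
    rcases ha with ⟨ℓ, hℓ, hℓN, hℓS, rfl⟩ | ⟨q, hqN, hq, hqS, rfl⟩
    · exact hT hℓ hℓN hℓS
    · exact absurd (hNS q hq hqN) hqS
  | algebraMap n =>
    have : (⟨algebraMap ℤ _ n, Subalgebra.algebraMap_mem _ n⟩ : heckeAlgebra N 2 S)
        = ((n : ℤ) : heckeAlgebra N 2 S) := by
      apply Subtype.ext
      simp
    rw [this, map_intCast]
    exact Int.cast_commute n x
  | add a b ha hb iha ihb =>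
    have : (⟨a + b, Subalgebra.add_mem _ ha hb⟩ : heckeAlgebra N 2 S)
        = (⟨a, ha⟩ : heckeAlgebra N 2 S) + ⟨b, hb⟩ := rfl
    rw [this, map_add]
    exact iha.add_left ihb
  | mul a b ha hb iha ihb =>
    have : (⟨a * b, Subalgebra.mul_mem _ ha hb⟩ : heckeAlgebra N 2 S)
        = (⟨a, ha⟩ : heckeAlgebra N 2 S) * ⟨b, hb⟩ := rfl
    rw [this, map_mul]
    exact iha.mul_left ihb

/-- scalars congruent modulo `I` act in the same way on endomorphisms of `V / I V`. -/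
theorem S32Q_smul_end_congr {T V : Type*} [CommRing T] [AddCommGroup V] [Module T V]
    (I : Ideal T) {t t' : T} (ht : t - t' ∈ I)
    (X : Module.End T (V ⧸ I • (⊤ : Submodule T V))) : t • X = t' • X := by
  apply LinearMap.ext
  intro w
  rw [LinearMap.smul_apply, LinearMap.smul_apply]
  have := S32Q_kill I _ ht (X w)
  rwa [sub_smul, sub_eq_zero] at this

end generic

section datum

variable {p : ℕ} {N : ℕ} [NeZero N] {S : Finset ℕ}
  {𝒪 : Type} [CommRing 𝒪] [IsDomain 𝒪] [IsDiscreteValuationRing 𝒪]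
  [IsAdicComplete (IsLocalRing.maximalIdeal 𝒪) 𝒪]
  {θ : CuspForm.heckeAlgebra N 2 (↑S : Set ℕ) →+* IsLocalRing.ResidueField 𝒪}
  {T : Type} [CommRing T] [IsLocalRing T] [IsNoetherianRing T]
  [IsAdicComplete (IsLocalRing.maximalIdeal T) T] [Algebra 𝒪 T] [IsLocalHom (algebraMap 𝒪 T)]
  [Module.Finite 𝒪 T] [Module.Free 𝒪 T]

theorem S32Q_pT (hp𝒪 : (p : 𝒪) ∈ IsLocalRing.maximalIdeal 𝒪) :
    (p : T) ∈ IsLocalRing.maximalIdeal T := by
  have h1 : algebraMap 𝒪 T (p : 𝒪) ∈ IsLocalRing.maximalIdeal T := by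
    rw [IsLocalRing.mem_maximalIdeal, mem_nonunits_iff]
    intro hu
    exact (IsLocalRing.mem_maximalIdeal _).mp hp𝒪 ((isUnit_map_iff (algebraMap 𝒪 T) _).mp hu)
  simpa using h1

/-- a Hecke element which vanishes at level `k + c` maps into `𝔪 ^ k`. -/
theorem S32Q_sat_mem (hp𝒪 : (p : 𝒪) ∈ IsLocalRing.maximalIdeal 𝒪)
    (H : CuspForm.HeckeGaloisRepDatum N (↑S : Set ℕ) 𝒪 θ T)
    (fs : S31_FS N (↑S : Set ℕ) p) (k : ℕ) (d : heckeAlgebra N 2 (↑S : Set ℕ))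
    (hd : S31_iota fs (k + fs.c) d = 0) : H.π d ∈ IsLocalRing.maximalIdeal T ^ k := by
  obtain ⟨t', ht'⟩ := fs.sat (k + fs.c) d hd
  rw [Nat.add_sub_cancel] at ht'
  rw [ht', map_mul, map_pow, map_natCast]
  exact Ideal.mul_mem_right _ _ (Ideal.pow_mem_pow (S32Q_pT hp𝒪) k)

/-- **oddness**: the trace of complex conjugation vanishes. -/
theorem S32Q_trace_conj (hpS : p ∈ S) (hp𝒪 : (p : 𝒪) ∈ IsLocalRing.maximalIdeal 𝒪)
    (hNS : ∀ q : ℕ, q.Prime → q ∣ N → q ∈ S)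
    (H : CuspForm.HeckeGaloisRepDatum N (↑S : Set ℕ) 𝒪 θ T)
    (tw : GR_Tower p N ↥(parInt N) (GR_hT N)) (fs : S31_FS N (↑S : Set ℕ) p)
    (hfde : S31_FDEStmt) (cyc : ∀ K : ℕ, S31_CycK p K)
    (hodd : ∀ K : ℕ, (((cyc K).ε complexConjugation : (ZMod (p ^ K))ˣ) : ZMod (p ^ K)) = -1) :
    H.ρ.trace complexConjugation = 0 := by
  have key : ∀ k : ℕ, H.ρ.trace complexConjugation ∈ IsLocalRing.maximalIdeal T ^ k := by
    intro k
    obtain ⟨d, hd, hι⟩ := S31_exists_hecke hpS hNS H tw fs hfde (cyc (k + fs.c)) k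
      complexConjugation
    have h0 : S31_tK tw (cyc (k + fs.c)) complexConjugation = 0 :=
      S32Q_tM_conj (tw.r (k + fs.c)) (cyc (k + fs.c)).ε complexConjugation
        complexConjugation_mul_self (hodd _)
    rw [h0] at hι
    have h1 := S32Q_sat_mem hp𝒪 H fs k d hι
    have h2 : H.ρ.trace complexConjugation
        = (H.ρ.trace complexConjugation - H.π d) + H.π d := by ring
    rw [h2]
    exact Ideal.add_mem _ hd h1
  have hbot : (⨅ k : ℕ, IsLocalRing.maximalIdeal T ^ k) = ⊥ :=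
    Ideal.iInf_pow_eq_bot_of_isLocalRing _ (IsLocalRing.maximalIdeal.isMaximal T).ne_top
  have hmem : H.ρ.trace complexConjugation ∈ (⨅ k : ℕ, IsLocalRing.maximalIdeal T ^ k) := by
    rw [Ideal.mem_iInf]
    exact key
  rwa [hbot, Ideal.mem_bot] at hmem

/-- the "half" at level `K`. -/
theorem S32Q_half_M {A M : Type*} [CommRing A] [AddCommGroup M] [Module A M] {E : Type*}
    [CommRing E] (ι : E →+* Module.End A M) (n u : ℕ) (hA : (n : A) = 0) (hu : 2 * u = n + 1) :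
    ι (u : E) + ι (u : E) = 1 := by
  rw [← map_add, ← two_mul]
  have h1 : (2 * (u : E)) = ((n + 1 : ℕ) : E) := by
    rw [← hu]
    push_cast
    ring
  rw [h1, map_natCast]
  have h2 : ((n + 1 : ℕ) : Module.End A M) = algebraMap A (Module.End A M) ((n + 1 : ℕ) : A) :=
    (map_natCast (algebraMap A (Module.End A M)) (n + 1)).symm
  rw [h2, Nat.cast_add, hA, zero_add, Nat.cast_one, map_one]

/-- the Hecke operators commute with the Galois action on the tower. -/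
theorem S32Q_iota_commute (hNS : ∀ q : ℕ, q.Prime → q ∣ N → q ∈ S)
    (tw : GR_Tower p N ↥(parInt N) (GR_hT N)) (fs : S31_FS N (↑S : Set ℕ) p) (K : ℕ)
    (d : heckeAlgebra N 2 (↑S : Set ℕ)) (g : GQ) : Commute (S31_iota fs K d) (tw.r K g) := by
  have hNS' : ∀ q : ℕ, q.Prime → q ∣ N → q ∈ (↑S : Set ℕ) := fun q hq hqN =>
    Finset.mem_coe.2 (hNS q hq hqN)
  refine S32Q_hecke_commute (S31_iota fs K) (tw.r K g) ?_ hNS' d
  intro ℓ hℓ hℓN hℓS
  rw [S31_iota_apply, fs.act_T]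
  exact (tw.hecke K g ℓ).symm

/-- polarised Cayley–Hamilton on the tower. -/
theorem S32Q_CH_M (tw : GR_Tower p N ↥(parInt N) (GR_hT N)) {K : ℕ} (cyc : S31_CycK p K)
    (hodd : ((cyc.ε complexConjugation : (ZMod (p ^ K))ˣ) : ZMod (p ^ K)) = -1) (g : GQ) :
    tw.r K complexConjugation * tw.r K g + tw.r K g * tw.r K complexConjugation
      = S31_tK tw cyc g * tw.r K complexConjugation + S31_tK tw cyc (complexConjugation * g) :=
  S32Q_polar_M (tw.r K) cyc.ε complexConjugation complexConjugation_mul_self hodd g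

/-- the Galois action on `V / I V` as a monoid homomorphism. -/
noncomputable def S32Q_rhoW (ρ : GaloisRepAdic T) (I : Ideal T) :
    GQ →* Module.End T (ρ.V ⧸ (I • (⊤ : Submodule T ρ.V))) :=
  (S32Q_q I).toMonoidHom.comp ρ.ρ

theorem S32Q_rhoW_apply (ρ : GaloisRepAdic T) (I : Ideal T) (σ : GQ) :
    S32Q_rhoW ρ I σ = S32Q_q I (ρ.ρ σ) := rfl

theorem S32Q_rhoW_level (ρ : GaloisRepAdic T) (I : Ideal T) (σ : GQ) :
    ρ.levelAction I σ = S32Q_rhoW ρ I σ := rfl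

theorem S32Q_rhoW_mk (ρ : GaloisRepAdic T) (I : Ideal T) (σ : GQ) (v : ρ.V) :
    S32Q_rhoW ρ I σ (Submodule.Quotient.mk v) = Submodule.Quotient.mk (ρ.ρ σ v) := rfl

/-- polarised Cayley–Hamilton on `V / I V`, in terms of `S32Q_rhoW`. -/
theorem S32Q_CH_W' (ρ : GaloisRepAdic T) (I : Ideal T)
    (htr : LinearMap.trace T ρ.V (ρ.ρ complexConjugation) = 0) (g : GQ) (t t' : T)
    (ht : ρ.trace g - t ∈ I) (ht' : ρ.trace (complexConjugation * g) - t' ∈ I) :
    S32Q_rhoW ρ I complexConjugation * S32Q_rhoW ρ I g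
        + S32Q_rhoW ρ I g * S32Q_rhoW ρ I complexConjugation
      = t • S32Q_rhoW ρ I complexConjugation
        + t' • (1 : Module.End T (ρ.V ⧸ (I • (⊤ : Submodule T ρ.V)))) := by
  have hV := S32Q_polar_zero ρ.finrank_eq (ρ.ρ complexConjugation) (ρ.ρ g) htr
  have hq := congrArg (S32Q_q I) hV
  rw [map_add, map_add, map_mul, map_mul, S32Q_q_smul, S32Q_q_smul, map_one] at hq
  have e1 : ρ.trace g = LinearMap.trace T ρ.V (ρ.ρ g) := rfl
  have e2 : ρ.trace (complexConjugation * g)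
      = LinearMap.trace T ρ.V (ρ.ρ complexConjugation * ρ.ρ g) := by
    unfold GaloisRepAdic.trace
    rw [map_mul]
  rw [e1] at ht
  rw [e2] at ht'
  refine hq.trans ?_
  congr 1
  · exact S32Q_smul_end_congr I ht _
  · exact S32Q_smul_end_congr I ht' _

/-- polarised Cayley–Hamilton on `V / I V`. -/
theorem S32Q_CH_W (ρ : GaloisRepAdic T) (I : Ideal T)
    (htr : LinearMap.trace T ρ.V (ρ.ρ complexConjugation) = 0) (g : GQ) (t t' : T)
    (ht : ρ.trace g - t ∈ I) (ht' : ρ.trace (complexConjugation * g) - t' ∈ I) :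
    S32Q_q I (ρ.ρ complexConjugation) * S32Q_q I (ρ.ρ g)
        + S32Q_q I (ρ.ρ g) * S32Q_q I (ρ.ρ complexConjugation)
      = t • S32Q_q I (ρ.ρ complexConjugation)
        + t' • (1 : Module.End T (ρ.V ⧸ (I • (⊤ : Submodule T ρ.V)))) := by
  have hV := S32Q_polar_zero ρ.finrank_eq (ρ.ρ complexConjugation) (ρ.ρ g) htr
  have hq := congrArg (S32Q_q I) hV
  rw [map_add, map_add, map_mul, map_mul, S32Q_q_smul, S32Q_q_smul, map_one] at hq
  rw [hq]
  have e1 : ρ.trace g = LinearMap.trace T ρ.V (ρ.ρ g) := rfl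
  have e2 : ρ.trace (complexConjugation * g)
      = LinearMap.trace T ρ.V (ρ.ρ complexConjugation * ρ.ρ g) := by
    unfold GaloisRepAdic.trace
    rw [map_mul]
  rw [e1] at ht
  rw [e2] at ht'
  congr 1
  · exact S32Q_smul_end_congr I ht _
  · exact S32Q_smul_end_congr I ht' _

/-- the two Cayley–Hamilton relations for given Hecke elements. -/
theorem S32Q_CH_pair
    (H : CuspForm.HeckeGaloisRepDatum N (↑S : Set ℕ) 𝒪 θ T)
    (tw : GR_Tower p N ↥(parInt N) (GR_hT N)) (fs : S31_FS N (↑S : Set ℕ) p)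
    {K : ℕ} (cyc : S31_CycK p K)
    (hodd : ((cyc.ε complexConjugation : (ZMod (p ^ K))ˣ) : ZMod (p ^ K)) = -1)
    (htr : LinearMap.trace T H.ρ.V (H.ρ.ρ complexConjugation) = 0)
    (I : Ideal T) (g : GQ) (d d' : heckeAlgebra N 2 (↑S : Set ℕ))
    (hd : H.ρ.trace g - H.π d ∈ I) (hι : S31_iota fs K d = S31_tK tw cyc g)
    (hd' : H.ρ.trace (complexConjugation * g) - H.π d' ∈ I)
    (hι' : S31_iota fs K d' = S31_tK tw cyc (complexConjugation * g)) :
    tw.r K complexConjugation * tw.r K g + tw.r K g * tw.r K complexConjugation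
        = S31_iota fs K d * tw.r K complexConjugation + S31_iota fs K d' ∧
      S32Q_rhoW H.ρ I complexConjugation * S32Q_rhoW H.ρ I g
        + S32Q_rhoW H.ρ I g * S32Q_rhoW H.ρ I complexConjugation
        = H.π d • S32Q_rhoW H.ρ I complexConjugation
          + H.π d' • (1 : Module.End T (H.ρ.V ⧸ (I • (⊤ : Submodule T H.ρ.V)))) := by
  refine ⟨(S32Q_CH_M tw cyc hodd g).trans ?_, S32Q_CH_W' H.ρ I htr g _ _ hd hd'⟩
  rw [← hι, ← hι']

/-- the two Cayley–Hamilton relations with common Hecke elements. -/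
theorem S32Q_CH_both (hpS : p ∈ S) (hNS : ∀ q : ℕ, q.Prime → q ∣ N → q ∈ S)
    (H : CuspForm.HeckeGaloisRepDatum N (↑S : Set ℕ) 𝒪 θ T)
    (tw : GR_Tower p N ↥(parInt N) (GR_hT N)) (fs : S31_FS N (↑S : Set ℕ) p)
    (hfde : S31_FDEStmt) {K : ℕ} (cyc : S31_CycK p K)
    (hodd : ((cyc.ε complexConjugation : (ZMod (p ^ K))ˣ) : ZMod (p ^ K)) = -1)
    (htr : LinearMap.trace T H.ρ.V (H.ρ.ρ complexConjugation) = 0)
    (I : Ideal T) (k : ℕ) (hk : IsLocalRing.maximalIdeal T ^ k ≤ I) (g : GQ) :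
    ∃ d d' : heckeAlgebra N 2 (↑S : Set ℕ),
      tw.r K complexConjugation * tw.r K g + tw.r K g * tw.r K complexConjugation
        = S31_iota fs K d * tw.r K complexConjugation + S31_iota fs K d' ∧
      S32Q_rhoW H.ρ I complexConjugation * S32Q_rhoW H.ρ I g
        + S32Q_rhoW H.ρ I g * S32Q_rhoW H.ρ I complexConjugation
        = H.π d • S32Q_rhoW H.ρ I complexConjugation
          + H.π d' • (1 : Module.End T (H.ρ.V ⧸ (I • (⊤ : Submodule T H.ρ.V)))) :=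
  (S31_exists_hecke hpS hNS H tw fs hfde cyc k g).elim fun d hd =>
    (S31_exists_hecke hpS hNS H tw fs hfde cyc k (complexConjugation * g)).elim fun d' hd' =>
      ⟨d, d', S32Q_CH_pair H tw fs cyc hodd htr I g d d' (hk hd.1) hd.2 (hk hd'.1) hd'.2⟩

/-- saturation at level `k + c`. -/
theorem S32Q_sat_datum (hp𝒪 : (p : 𝒪) ∈ IsLocalRing.maximalIdeal 𝒪)
    (H : CuspForm.HeckeGaloisRepDatum N (↑S : Set ℕ) 𝒪 θ T)
    (fs : S31_FS N (↑S : Set ℕ) p) (I : Ideal T) (k : ℕ)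
    (hk : IsLocalRing.maximalIdeal T ^ k ≤ I) (d : heckeAlgebra N 2 (↑S : Set ℕ))
    (hd : S31_iota fs (k + fs.c) d = 0) : H.π d ∈ I :=
  hk (S32Q_sat_mem hp𝒪 H fs k d hd)

/-- the half in `T`. -/
theorem S32Q_half_W (H : CuspForm.HeckeGaloisRepDatum N (↑S : Set ℕ) 𝒪 θ T) (I : Ideal T)
    (K u : ℕ) (hu : 2 * u = p ^ K + 1) (hpI : (p : T) ^ K ∈ I) :
    H.π (u : heckeAlgebra N 2 (↑S : Set ℕ)) + H.π (u : heckeAlgebra N 2 (↑S : Set ℕ)) - 1 ∈ I := by
  have : H.π (u : heckeAlgebra N 2 (↑S : Set ℕ)) + H.π (u : heckeAlgebra N 2 (↑S : Set ℕ)) - 1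
      = (p : T) ^ K := by
    rw [map_natCast, ← two_mul]
    have : (2 * (u : T)) = ((2 * u : ℕ) : T) := by push_cast; ring
    rw [this, hu]
    push_cast
    ring
  rw [this]
  exact hpI

/-- **`V / I V` from the tower.** -/
theorem S32Q_of_tower (hp : p.Prime) (hp2 : p ≠ 2)
    (hp𝒪 : (p : 𝒪) ∈ IsLocalRing.maximalIdeal 𝒪) (hpS : p ∈ S)
    (hNS : ∀ q : ℕ, q.Prime → q ∣ N → q ∈ S)
    (H : CuspForm.HeckeGaloisRepDatum N (↑S : Set ℕ) 𝒪 θ T)
    (tw : GR_Tower p N ↥(parInt N) (GR_hT N)) (fs : S31_FS N (↑S : Set ℕ) p)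
    (hfde : S31_FDEStmt) (cyc : ∀ K : ℕ, S31_CycK p K)
    (hodd : ∀ K : ℕ, (((cyc K).ε complexConjugation : (ZMod (p ^ K))ˣ) : ZMod (p ^ K)) = -1)
    (J : ℕ → Type) [∀ K, AddCommGroup (J K)] (actJ : ∀ K, GQ → J K → J K)
    (κ : ∀ K, J K →+ ZMod (p ^ K) ⊗[ℤ] ↥(parInt N)) (hκs : ∀ K, Function.Surjective (κ K))
    (hκe : ∀ K σ x, κ K (actJ K σ x) = tw.r K σ (κ K x))
    (hfin : ∀ K, Finite (ZMod (p ^ K) ⊗[ℤ] ↥(parInt N)))
    (I : Ideal T) [Finite (T ⧸ I)] :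
    ∃ (K n : ℕ) (P : AddSubgroup (Fin n → J K))
      (hP : ∀ σ, ∀ x ∈ P, (fun i => actJ K σ (x i)) ∈ P)
      (φ : ↥P →+ (H.ρ.V ⧸ (I • (⊤ : Submodule T H.ρ.V)))),
      Function.Surjective φ ∧
        ∀ σ (x : ↥P), φ ⟨fun i => actJ K σ (x.1 i), hP σ x.1 x.2⟩
          = H.ρ.levelAction I σ (φ x) := by
  classical
  have hpT : (p : T) ∈ IsLocalRing.maximalIdeal T := S32Q_pT hp𝒪
  have h2 : IsUnit (2 : T) := S32Q_two_unit hp hp2 hpT
  have htr : LinearMap.trace T H.ρ.V (H.ρ.ρ complexConjugation) = 0 :=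
    S32Q_trace_conj hpS hp𝒪 hNS H tw fs hfde cyc hodd
  have hCC : H.ρ.ρ complexConjugation * H.ρ.ρ complexConjugation = 1 := by
    rw [← map_mul, complexConjugation_mul_self, map_one]
  obtain ⟨b, hb0, hb1⟩ := S32Q_eigen_basis h2 H.ρ.finrank_eq (H.ρ.ρ complexConjugation) hCC htr
  have hspan := CY_span H.ρ H.residual_absIrr
  obtain ⟨X₁, ⟨g₁, rfl⟩, hu₁⟩ := S32Q_offdiag b (Set.range H.ρ.ρ) hspan 0 1
  obtain ⟨X₂, ⟨g₂, rfl⟩, hu₂⟩ := S32Q_offdiag b (Set.range H.ρ.ρ) hspan 1 0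
  obtain ⟨k, hk⟩ := S32Q_exists_pow_le I
  haveI := hfin (k + fs.c)
  haveI : Fintype (T ⧸ I) := Fintype.ofFinite _
  -- the half
  have hodd' : Odd (p ^ (k + fs.c)) := (hp.eq_two_or_odd'.resolve_left hp2).pow
  obtain ⟨u, hu⟩ : ∃ u : ℕ, 2 * u = p ^ (k + fs.c) + 1 := by
    obtain ⟨m, hm⟩ := hodd'
    exact ⟨m + 1, by rw [hm]; ring⟩
  have hpK : ((p ^ (k + fs.c) : ℕ) : ZMod (p ^ (k + fs.c))) = 0 := ZMod.natCast_self _
  have hhM := S32Q_half_M (S31_iota fs (k + fs.c)) (p ^ (k + fs.c)) u hpK hu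
  have hpI : (p : T) ^ (k + fs.c) ∈ I := by
    apply hk
    rw [pow_add]
    exact Ideal.mul_mem_right _ _ (Ideal.pow_mem_pow hpT k)
  have hhW := S32Q_half_W H I (k + fs.c) u hu hpI
  -- the vectors
  have hcp : S32Q_rhoW H.ρ I complexConjugation (Submodule.Quotient.mk (b 0))
      = (Submodule.Quotient.mk (b 0) : H.ρ.V ⧸ (I • (⊤ : Submodule T H.ρ.V))) := by
    rw [S32Q_rhoW_mk, hb0]
  have hcm : S32Q_rhoW H.ρ I complexConjugation (Submodule.Quotient.mk (b 1))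
      = -(Submodule.Quotient.mk (b 1) : H.ρ.V ⧸ (I • (⊤ : Submodule T H.ρ.V))) := by
    rw [S32Q_rhoW_mk, hb1, Submodule.Quotient.mk_neg]
  have hg₁ : S32Q_rhoW H.ρ I g₁ (Submodule.Quotient.mk (b 0)) = _ :=
    S32Q_entry_mk I b (H.ρ.ρ g₁) 0
  have hg₂ : S32Q_rhoW H.ρ I g₂ (Submodule.Quotient.mk (b 1)) = _ :=
    S32Q_entry_mk I b (H.ρ.ρ g₂) 1
  have hγ : b.repr (H.ρ.ρ g₁ (b 0)) 1 * ((hu₁.unit⁻¹ : Tˣ) : T) - 1 ∈ I := by
    rw [IsUnit.mul_val_inv, sub_self]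
    exact zero_mem _
  have hβ : b.repr (H.ρ.ρ g₂ (b 1)) 0 * ((hu₂.unit⁻¹ : Tˣ) : T) - 1 ∈ I := by
    rw [IsUnit.mul_val_inv, sub_self]
    exact zero_mem _
  have hιr := S32Q_iota_commute hNS tw fs (k + fs.c)
  have hCH := S32Q_CH_both hpS hNS H tw fs hfde (cyc (k + fs.c)) (hodd _) htr I k hk
  have hsat := S32Q_sat_datum hp𝒪 H fs I k hk
  have hf := S32Q_Gam_functional I (S32Q_kill I) (tw.r (k + fs.c)) (S31_iota fs (k + fs.c)) hιr
    (S32Q_rhoW H.ρ I) H.π complexConjugation complexConjugation_mul_self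
    (u : heckeAlgebra N 2 (↑S : Set ℕ)) hhM hhW hCH hsat _ _ (S32Q_span_mk I b) hcp hcm
    (S32Q_ann_mk I b) g₁ g₂ _ _ _ _ _ _ hg₁ hg₂ hγ hβ
  have hs := S32Q_Gam_stable I (tw.r (k + fs.c)) (S31_iota fs (k + fs.c)) hιr
    (S32Q_rhoW H.ρ I) H.π complexConjugation (u : heckeAlgebra N 2 (↑S : Set ℕ))
    (Submodule.Quotient.mk (b 0) : H.ρ.V ⧸ (I • (⊤ : Submodule T H.ρ.V)))
  have ho := S32Q_Gam_onto I (S32Q_kill I) (tw.r (k + fs.c)) (S31_iota fs (k + fs.c)) hιr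
    (S32Q_rhoW H.ρ I) H.π complexConjugation (u : heckeAlgebra N 2 (↑S : Set ℕ)) hhW _ _
    (S32Q_span_mk I b) hcp hcm g₁ _ _ _ hg₁ hγ
  obtain ⟨n, P, hP, φ, hφs, hφe⟩ := S32Q_transport (actJ (k + fs.c))
    (fun σ m => tw.r (k + fs.c) σ m) (fun σ w => S32Q_rhoW H.ρ I σ w) (κ (k + fs.c))
    (hκs (k + fs.c)) (hκe (k + fs.c)) _ hf hs ho
  exact ⟨k + fs.c, n, P, hP, φ, hφs, fun σ x => hφe σ x⟩

end datum

end Fermat.Agent.S32
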