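import Mathlib
import Fermat.Agent.S32.SubQTower
import Fermat.Agent.S32.SubQKappa
import Fermat.Agent.S32.SubQConj
import Fermat.Agent.S31.Final
import Fermat.Agent.GalRep.HeckeFinal
import Fermat.Agent.GalRep.KMFinal
import Fermat.Agent.GalRep.ESWire
import Fermat.Agent.GalRep.T3Wire
import Fermat.Agent.S19.HopfJZero

/-!
# TRACK 9 (S32), package F2 (helper29): `V / I V` is a Galois subquotient of `J₀(N)[p^K]^r`

`S32Q_main` : for a Hecke–Galois datum `H` of level `N` (away from `S ∋ p`, `S ⊇ {primes of N}`),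
`p` odd, and an ideal `I` of finite index of `T`: there are `K`, `r`, a Galois-stable subgroup
`P ⊂ J₀(N)[p^K]^r` and a Galois-equivariant surjection `φ : P →+ V / I V`
(exactly the hypothesis `hF2` of `S32W_final`).
-/

set_option autoImplicit false
set_option linter.unusedSectionVars false
set_option linter.unusedVariables false
set_option linter.style.haveILetI false

open ModularCurve
open scoped TensorProduct

namespace Fermat.Agent.S32

open Fermat.Agent.GalRep Fermat.Agent.S16 Fermat.Agent.S31 Fermat.Agent.S19 CuspForm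

section tower

variable (N : ℕ) [NeZero N] (p : ℕ) [hp : Fact p.Prime]

/-- the tower of `GR_tower`, as a definition, with `r k = GRT_r (KMF_kappa_final N) (p ^ k)`. -/
noncomputable def S32Q_tw
    (hH : ∀ (ℓ : ℕ) [Fact ℓ.Prime], Nonempty (GR_HeckeES N ℓ)) (hU : GR_UnramStmt N)
    (hFin : GR_FinStmt N) : GR_Tower p N ↥(parInt N) (GR_hT N) where
  r := fun k => @GRT_r N _ (KMF_kappa_final N) (p ^ k) ⟨pow_ne_zero k hp.out.ne_zero⟩
  compat := by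
    intro k σ x
    exact @GRT_r_compat N _ (KMF_kappa_final N) (p ^ k) (p ^ (k + 1))
      ⟨pow_ne_zero k hp.out.ne_zero⟩
      ⟨pow_ne_zero (k + 1) hp.out.ne_zero⟩ (pow_dvd_pow p (Nat.le_succ k)) σ x
  fin := by
    intro k
    obtain ⟨L, hL, h⟩ := hFin (p ^ k) (pow_pos hp.out.pos k)
    refine ⟨L, hL, fun σ hσ => ?_⟩
    exact @GRT_r_eq_one N _ (KMF_kappa_final N) (p ^ k) ⟨pow_ne_zero k hp.out.ne_zero⟩ σ
      (GRT_act_eq_one (KMF_kappa_final N) _ σ (h σ hσ))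
  hecke := by
    intro k σ ℓ
    exact @GRT_r_commute N _ (KMF_kappa_final N) hH (p ^ k) ⟨pow_ne_zero k hp.out.ne_zero⟩ σ ℓ
  es := by
    intro k ℓ hℓ hℓN hℓp σ hσ
    have : Fact ℓ.Prime := ⟨hℓ⟩
    obtain ⟨H⟩ := hH ℓ
    have hnd : ¬ ℓ ∣ p ^ k := fun hdvd =>
      hℓp ((Nat.prime_dvd_prime_iff_eq hℓ hp.out).mp (hℓ.dvd_of_dvd_pow hdvd))
    exact @GRT_r_es N _ (KMF_kappa_final N) (p ^ k) ⟨pow_ne_zero k hp.out.ne_zero⟩ ℓ _ H hℓN
      hnd σ hσ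
  unram := by
    intro k q hq hqN hqp P hP τ hτ
    have hnd : ¬ q ∣ p ^ k := fun hdvd =>
      hqp ((Nat.prime_dvd_prime_iff_eq hq hp.out).mp (hq.dvd_of_dvd_pow hdvd))
    exact @GRT_r_eq_one N _ (KMF_kappa_final N) (p ^ k) ⟨pow_ne_zero k hp.out.ne_zero⟩ τ
      (GRT_act_eq_one (KMF_kappa_final N) _ τ
        (hU (p ^ k) q (pow_pos hp.out.pos k) hq hqN hnd P hP τ hτ))

theorem S32Q_tw_r (hH : ∀ (ℓ : ℕ) [Fact ℓ.Prime], Nonempty (GR_HeckeES N ℓ))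
    (hU : GR_UnramStmt N) (hFin : GR_FinStmt N) (k : ℕ) :
    (S32Q_tw N p hH hU hFin).r k
      = @GRT_r N _ (KMF_kappa_final N) (p ^ k) ⟨pow_ne_zero k hp.out.ne_zero⟩ := rfl

/-- the levels of the tower are finite. -/
theorem S32Q_level_finite (k : ℕ) : Finite (ZMod (p ^ k) ⊗[ℤ] ↥(parInt N)) := by
  haveI : NeZero (p ^ k) := ⟨pow_ne_zero k hp.out.ne_zero⟩
  haveI := KMF_finite_char N (p ^ k) (pow_pos hp.out.pos k)
  haveI : Finite ↥(GRT_X N (p ^ k)) := Finite.of_injective _ Subtype.val_injective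
  exact Finite.of_injective _ (GRT_iso N (p ^ k)).injective

/-- the Kummer map is equivariant for the tower. -/
theorem S32Q_kappa_tw (hH : ∀ (ℓ : ℕ) [Fact ℓ.Prime], Nonempty (GR_HeckeES N ℓ))
    (hU : GR_UnramStmt N) (hFin : GR_FinStmt N) (k : ℕ) (σ : GQ)
    (x : ↥(Submodule.torsionBy ℤ (JZero N) ((p : ℤ) ^ k))) :
    @S32Q_kappa N _ p k ⟨pow_ne_zero k hp.out.ne_zero⟩ (S19F_act N p k σ x)
      = (S32Q_tw N p hH hU hFin).r k σ
          (@S32Q_kappa N _ p k ⟨pow_ne_zero k hp.out.ne_zero⟩ x) :=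
  @S32Q_kappa_gal N _ p k ⟨pow_ne_zero k hp.out.ne_zero⟩ σ x (S19F_act N p k σ x) rfl

end tower

section main

variable {p : ℕ} {N : ℕ} [NeZero N] {S : Finset ℕ}
  {𝒪 : Type} [CommRing 𝒪] [IsDomain 𝒪] [IsDiscreteValuationRing 𝒪]
  [IsAdicComplete (IsLocalRing.maximalIdeal 𝒪) 𝒪]
  {θ : CuspForm.heckeAlgebra N 2 (↑S : Set ℕ) →+* IsLocalRing.ResidueField 𝒪}
  {T : Type} [CommRing T] [IsLocalRing T] [IsNoetherianRing T]
  [IsAdicComplete (IsLocalRing.maximalIdeal T) T] [Algebra 𝒪 T] [IsLocalHom (algebraMap 𝒪 T)]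
  [Module.Finite 𝒪 T] [Module.Free 𝒪 T]

/-- **F2**: `V / I V` is a Galois-equivariant quotient of a Galois-stable subgroup of
`J₀(N)[p^K]^r`. -/
theorem S32Q_main (hp : p.Prime) (hp2 : p ≠ 2)
    (hp𝒪 : (p : 𝒪) ∈ IsLocalRing.maximalIdeal 𝒪) (hpS : p ∈ S)
    (hNS : ∀ q : ℕ, q.Prime → q ∣ N → q ∈ S)
    (H : CuspForm.HeckeGaloisRepDatum N (↑S : Set ℕ) 𝒪 θ T)
    (I : Ideal T) (hI : Finite (T ⧸ I)) :
    ∃ (K r : ℕ) (P : AddSubgroup (Fin r → ↥(Submodule.torsionBy ℤ (JZero N) ((p : ℤ) ^ K))))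
      (hP : ∀ σ, ∀ x ∈ P, (fun i => S19F_act N p K σ (x i)) ∈ P)
      (φ : ↥P →+ (H.ρ.V ⧸ (I • (⊤ : Submodule T H.ρ.V)))),
      Function.Surjective φ ∧
      ∀ σ (x : ↥P), φ ⟨fun i => S19F_act N p K σ (x.1 i), hP σ x.1 x.2⟩ =
        H.ρ.levelAction I σ (φ x) := by
  haveI : Fact p.Prime := ⟨hp⟩
  haveI := hI
  have hH : ∀ (ℓ : ℕ) [Fact ℓ.Prime], Nonempty (GR_HeckeES N ℓ) := fun ℓ _ => GRHX_heckeES N ℓ
  have hU : GR_UnramStmt N := ES_unram GRT3_s18 GRT3_ri N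
  have hFin : GR_FinStmt N := GR_fin N (KMF_kappa_final N)
  exact S32Q_of_tower hp hp2 hp𝒪 hpS hNS H (S32Q_tw N p hH hU hFin) (S31_fs N (↑S : Set ℕ) p)
    FDE_stmt (S31_cycK p) (fun K => S32Q_eps_conj p K)
    (fun K => ↥(Submodule.torsionBy ℤ (JZero N) ((p : ℤ) ^ K)))
    (fun K => S19F_act N p K)
    (fun K => @S32Q_kappa N _ p K ⟨pow_ne_zero K hp.ne_zero⟩)
    (fun K => @S32Q_kappa_surjective N _ p K ⟨pow_ne_zero K hp.ne_zero⟩)
    (fun K σ x => S32Q_kappa_tw N p hH hU hFin K σ x)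
    (fun K => S32Q_level_finite N p K) I

end main

end Fermat.Agent.S32
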