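import Mathlib
import Fermat.Prelude.Def_CuspForm_HeckeGaloisRepDatum
import Fermat.Prelude.Def_GaloisRep_Flat
import Fermat.Agent.S19.OrdDefs
import Fermat.Agent.S19.OrdQuot

/-!
# TRACK 9 (S32), package F1.x (d): wiring of `IsFlatAt`

* `S32W_isFlatAt` : `ρ.IsFlatAt p` as soon as the residue field is finite and every finite level
  `V/IV` is an equivariant quotient of a finite Galois module with a Hopf order over `ℤ_(p)`
  (`S19FO_HasOrder`, `S19FO_quot`, `S19FO_HasOrder.flat`);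
* `S32W_residue_finite` : the residue field of the coefficient ring of a Hecke–Galois datum is
  finite.
-/

set_option autoImplicit false

noncomputable section

namespace Fermat.Agent.S32

open Fermat.Agent.S19

/-- `IsFlatAt` from Hopf orders on Galois modules that cover the finite levels. -/
theorem S32W_isFlatAt {A : Type} [CommRing A] [IsLocalRing A] (ρ : GaloisRepAdic A) (p : ℕ)
    [Fact p.Prime] (hres : Finite (IsLocalRing.ResidueField A))
    (h : ∀ I : Ideal A, Finite (A ⧸ I) →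
      ∃ (G : Type) (_ : AddCommGroup G) (_ : Finite G)
        (act : (AlgebraicClosure ℚ ≃ₐ[ℚ] AlgebraicClosure ℚ) → G → G),
        (∀ σ, act σ 0 = 0) ∧ (∀ σ, Function.Surjective (act σ)) ∧ S19FO_HasOrder p act ∧
        ∃ φ : G →+ (ρ.V ⧸ (I • (⊤ : Submodule A ρ.V))), Function.Surjective φ ∧
          ∀ σ x, φ (act σ x) = ρ.levelAction I σ (φ x)) :
    ρ.IsFlatAt p := by
  refine ⟨hres, fun I hI => ?_⟩
  obtain ⟨G, _, _, act, hact0, hsurj, hord, φ, hφ, heqv⟩ := h I hI
  have hQ : S19FO_HasOrder p (fun σ (y : ρ.V ⧸ (I • (⊤ : Submodule A ρ.V))) =>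
      ρ.levelAction I σ y) :=
    S19FO_quot act hact0 hsurj _ φ hφ heqv hord
  have hfin : Finite (ρ.V ⧸ (I • (⊤ : Submodule A ρ.V))) := Finite.of_surjective φ hφ
  have hact0' : ∀ σ : (AlgebraicClosure ℚ ≃ₐ[ℚ] AlgebraicClosure ℚ),
      ρ.levelAction I σ (0 : ρ.V ⧸ (I • (⊤ : Submodule A ρ.V))) = 0 := fun σ => map_zero _
  have hsurj' : ∀ σ : (AlgebraicClosure ℚ ≃ₐ[ℚ] AlgebraicClosure ℚ),
      Function.Surjective (fun y : ρ.V ⧸ (I • (⊤ : Submodule A ρ.V)) =>
        ρ.levelAction I σ y) := by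
    intro σ y
    obtain ⟨x, rfl⟩ := hφ y
    obtain ⟨x', rfl⟩ := hsurj σ x
    exact ⟨φ x', (heqv σ x').symm⟩
  exact hQ.flat hact0' hsurj'

section Datum

variable {N : ℕ} [NeZero N] {S : Set ℕ}
  {𝒪 : Type} [CommRing 𝒪] [IsDomain 𝒪] [IsDiscreteValuationRing 𝒪]
  [IsAdicComplete (IsLocalRing.maximalIdeal 𝒪) 𝒪]
  {θ : CuspForm.heckeAlgebra N 2 S →+* IsLocalRing.ResidueField 𝒪}
  {T : Type} [CommRing T] [IsLocalRing T] [IsNoetherianRing T]
  [IsAdicComplete (IsLocalRing.maximalIdeal T) T] [Algebra 𝒪 T] [IsLocalHom (algebraMap 𝒪 T)]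
  [Module.Finite 𝒪 T] [Module.Free 𝒪 T]

/-- the residue field of `T` is finite. -/
theorem S32W_residue_finite [Finite (IsLocalRing.ResidueField 𝒪)]
    (H : CuspForm.HeckeGaloisRepDatum N S 𝒪 θ T) : Finite (IsLocalRing.ResidueField T) := by
  have hs : Function.Surjective (IsLocalRing.ResidueField.map (algebraMap 𝒪 T)) := by
    intro y
    obtain ⟨x, rfl⟩ := H.residue_surjective y
    exact ⟨IsLocalRing.residue 𝒪 x, rfl⟩
  exact Finite.of_surjective _ hs

end Datum

end Fermat.Agent.S32
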