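import Mathlib
import Fermat.Prelude.Def_CuspForm_HeckeGaloisRepDatum
import Fermat.Prelude.Def_GaloisRep_Flat
import Fermat.Agent.S19.HopfJZero
import Fermat.Agent.S19.OrdDefs
import Fermat.Agent.S19.OrdOps
import Fermat.Agent.S19.OrdQuot
import Fermat.Agent.S32.Wire

/-!
# TRACK 9 (S32): final wiring

`S32W_final` : `ρ.IsFlatAt p` from

* `hS19` : `J₀(N)[p^K]` has a Hopf order over `ℤ_(p)` for every `K` (the geometric content of S19);
* `hF2`  : every finite level `V/IV` is an equivariant quotient of a Galois-stable subgroup of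
           `J₀(N)[p^K]^r` (package F2, helper29's `S32Q_main`).
-/

set_option autoImplicit false

noncomputable section

namespace Fermat.Agent.S32

open Fermat.Agent.S19 ModularCurve

/-- the Hopf order of `J₀(N)[p^K]` in the form of `S19FO_HasOrder` gives S19 verbatim. -/
theorem S32W_S19_of_hasOrder (N : ℕ) [NeZero N] (ℓ : ℕ) [Fact ℓ.Prime] (k : ℕ)
    (h : S19FO_HasOrder ℓ (S19F_act N ℓ k)) :
    ∃ (H : Type) (_ : CommRing H) (_ : HopfAlgebra (GaloisRep.ratLocalizedAt ℓ) H),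
      Module.Finite (GaloisRep.ratLocalizedAt ℓ) H ∧ Module.Flat (GaloisRep.ratLocalizedAt ℓ) H ∧
      Coalgebra.IsCocomm (GaloisRep.ratLocalizedAt ℓ) H ∧
      ∃ e : WithConv (H →ₐ[GaloisRep.ratLocalizedAt ℓ] AlgebraicClosure ℚ) ≃
          ↥(Submodule.torsionBy ℤ (JZero N) ((ℓ : ℤ) ^ k)),
        (∀ f g, e (f * g) = e f + e g) ∧
        ∀ (σ : AlgebraicClosure ℚ ≃ₐ[ℚ] AlgebraicClosure ℚ)
          (f g : WithConv (H →ₐ[GaloisRep.ratLocalizedAt ℓ] AlgebraicClosure ℚ)),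
          (∀ h : H, g h = σ (f h)) → ((e g : JZero N)) = σ • (e f : JZero N) := by
  obtain ⟨H₀, h1, h2, h3, h4⟩ := h
  exact S19F_of_order N ℓ k H₀ h1 h2 h3 h4

/-- **S32, final wiring**. -/
theorem S32W_final {A : Type} [CommRing A] [IsLocalRing A] (ρ : GaloisRepAdic A) (N : ℕ)
    [NeZero N] (p : ℕ) [Fact p.Prime] (hres : Finite (IsLocalRing.ResidueField A))
    (hS19 : ∀ K : ℕ, S19FO_HasOrder p (S19F_act N p K))
    (hF2 : ∀ I : Ideal A, Finite (A ⧸ I) →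
      ∃ (K r : ℕ) (P : AddSubgroup (Fin r → ↥(Submodule.torsionBy ℤ (JZero N) ((p : ℤ) ^ K))))
        (hP : ∀ σ, ∀ x ∈ P, (fun i => S19F_act N p K σ (x i)) ∈ P)
        (φ : ↥P →+ (ρ.V ⧸ (I • (⊤ : Submodule A ρ.V)))),
        Function.Surjective φ ∧
        ∀ σ (x : ↥P), φ ⟨fun i => S19F_act N p K σ (x.1 i), hP σ x.1 x.2⟩ =
          ρ.levelAction I σ (φ x)) :
    ρ.IsFlatAt p := by
  refine S32W_isFlatAt ρ p hres (fun I hI => ?_)
  obtain ⟨K, r, P, hP, φ, hφ, heqv⟩ := hF2 I hI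
  have hfin := S19F_jzero_finite N p K
  have hpi := S19FO_pi (ℓ := p) r (hS19 K)
  have hsub := S19FO_sub (ℓ := p) P (fun σ x hx => hP σ x hx) hpi
  refine ⟨↥P, inferInstance, inferInstance, _, ?_, ?_, hsub, φ, hφ, heqv⟩
  · intro σ
    apply Subtype.ext
    funext i
    exact S19F_act_zero N p K σ
  · intro σ x
    have hx : (fun i => S19F_act N p K σ⁻¹ (x.1 i)) ∈ P := hP σ⁻¹ x.1 x.2
    refine ⟨⟨_, hx⟩, ?_⟩
    apply Subtype.ext
    funext i
    show S19F_act N p K σ (S19F_act N p K σ⁻¹ (x.1 i)) = x.1 i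
    rw [← S19F_act_mul, mul_inv_cancel, S19F_act_one]

end Fermat.Agent.S32
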